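import Mathlib
import Fermat.Agent.S43.LG1.C1.HypX1
import Fermat.Agent.S43.LG1.C1.GaussEquivG
import Fermat.Agent.S48.B.Red.Gauss1
import Fermat.Agent.S48.B.Red.Final1
import Fermat.Agent.S48.B.Red.Fibre1
import Fermat.Agent.S48.B.Red.Equiv1.PlaceEquiv1
import Fermat.Agent.S48.B.Igusa.Main
import Fermat.Agent.S48.B.Igusa.U1.ActStable
import Fermat.Agent.S37.Deuring.OrthoBasis2
import Fermat.Agent.S18.Final
import Fermat.Agent.S18.Wire

/-!
# PROJECT R (S43), block FLAT1, file `FrameX1` (helper8): the abstract S18/S19 frame at `X₁(M)`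

Twin of main's `S19/FrameX0`.  Everything here is a re-export of facts that are on main
(S18, S37, S48/B) or in the gate's block `LG1/C1` (`HypX1`, `GaussEquivG`); the file fixes the literal
shapes that the twins of the slices of S19 target.

For `A : ValuationSubring ℚ̄` over a prime `ℓ ∤ M`, `k = κ(A)`, `F_L = ℚ̄(X₁(M)) = F1Bar M`,
`F_k = k(X₁(M)) = F1C M k`:

* `(F1)` `reductionInputs : ReductionInputs1 A M`, `rX1`, `redDatumX1 : RedDatum A (residue A) rX1`;
* `(F2)` `isAlgClosed_k`, `charP_k`, `isSeparable_jk`;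
* `(F3)` `deg_eq_one_L`, `deg_eq_one_k`, `hasPrincipalDivisors_L`, `hasPrincipalDivisors_k`;
* `(F4)` `exists_genus : ∃ g, RiemannHyp ℚ̄ F_L g ∧ RiemannHyp k F_k g` (the SAME `g`);
* `(F5)` the element `jX1 : R.O` with `red jX1 = j̄`, unramified outside a finite set;
* `(F6)` the action of the decomposition group on places commutes with `rX1`;
* `(F7)` orthonormal reduction of finite-dimensional subspaces.
-/

set_option autoImplicit false
set_option synthInstance.maxHeartbeats 400000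
set_option linter.unusedSectionVars false
set_option linter.style.haveILetI false

noncomputable section

namespace Fermat.Agent.S43.Flat1.FrameX1

open AlgebraicCurve ModularCurve IntermediateField IsLocalRing
open Fermat.Agent.S18.CoreDefs Fermat.Agent.S18.NonSpecial Fermat.Agent.S18.NonSpecialAdapter
open Fermat.Agent.S18.A Fermat.Agent.S18.B
open Fermat.Agent.S37.Equivariance.GaussEquiv
open Fermat.Agent.S48.B.Defs.Model Fermat.Agent.S48.B.Defs.Reduction
open Fermat.Agent.S48.B.B1.Seams (jgen1)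
open Fermat.Agent.S48.B.Red.Seams (jC IgusaDeg)
open Fermat.Agent.S48.B.Red.CoeffAut1
open Fermat.Agent.S48.B.Red.GaussG
open Fermat.Agent.S48.B.Inj

local notation "Kb" => AlgebraicClosure ℚ

attribute [local instance] Fermat.Agent.S43.LG1.C1.LevelMSurjX1.algKappa

variable {ℓ : ℕ} [Fact ℓ.Prime] (M : ℕ) [NeZero M] (A : ValuationSubring Kb)

/-! ### (F2) the residue field -/

theorem isAlgClosed_k : IsAlgClosed (ResidueField ↥A) :=
  Fermat.Agent.S18.ResidueBasics.isAlgClosed_residueField A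

theorem charP_k (hA : A.LiesOverPrime ℓ) : CharP (ResidueField ↥A) ℓ :=
  Fermat.Agent.S18.ResidueBasics.charP_residueField A hA

/-- the degree seam of `X₁(M)` (a theorem of main) -/
theorem igusa : IgusaDeg M := Fermat.Agent.S48.B.Igusa.Main.igusaDeg M

/-- `j` is a separating variable of `ℚ̄(X₁(M))` -/
theorem isFF_jL : Fermat.Agent.S24.FF.IsFF Kb (jgen1 M) := (Fermat.Agent.S48.B.B1.Main.deg1 M).1

/-! ### (F3) places of degree one, principal divisors -/

theorem deg_eq_one_L (P : Place Kb ↥(F1Bar M)) : P.deg = 1 :=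
  Basics.deg_eq_one (isFF_jL M) P

theorem hasPrincipalDivisors_L : HasPrincipalDivisors Kb ↥(F1Bar M) :=
  Basics.hasPrincipalDivisors_L (isFF_jL M)

variable (hA : A.LiesOverPrime ℓ) (hℓM : ¬ ℓ ∣ M)
include hA hℓM

theorem finiteDimensional_jk :
    FiniteDimensional ↥(ResidueField ↥A)⟮jC M (ResidueField ↥A)⟯ ↥(F1C M (ResidueField ↥A)) :=
  Fermat.Agent.S48.B.Red.Bases1.finiteDimensional_igusa (igusa M) (Fact.out : ℓ.Prime) hℓM hA

theorem isFF_jk : Fermat.Agent.S24.FF.IsFF (ResidueField ↥A) (jC M (ResidueField ↥A)) :=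
  haveI := isAlgClosed_k A
  Fermat.Agent.S43.LG1.C1.LevelMSurjX1.isFF_jC1 (igusa M) (Fact.out : ℓ.Prime) hℓM hA

theorem isSeparable_jk :
    Algebra.IsSeparable ↥(ResidueField ↥A)⟮jC M (ResidueField ↥A)⟯ ↥(F1C M (ResidueField ↥A)) :=
  haveI := isAlgClosed_k A
  Fermat.Agent.S43.LG1.C1.LevelMSurjX1.isSeparable_jC1 (igusa M) (Fact.out : ℓ.Prime) hℓM hA

theorem hasPrincipalDivisors_k :
    HasPrincipalDivisors (ResidueField ↥A) ↥(F1C M (ResidueField ↥A)) :=
  haveI := isAlgClosed_k A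
  PrincipalDivisors.hasPrincipalDivisors (isFF_jk M A hA hℓM) (isSeparable_jk M A hA hℓM)

/-! ### (F1) the reduction datum -/

/-- `ReductionInputs1 A M` at every prime `ℓ ∤ M` (S48/B). -/
theorem reductionInputs : ReductionInputs1 A M :=
  Fermat.Agent.S48.B.Red.Final1.redInputs1_of_actStable (igusa M)
    (Fermat.Agent.S48.B.Igusa.U1.ActStable.actStable M) ℓ (Fact.out : ℓ.Prime) hℓM A hA

/-- the place reduction map of `X₁(M)` at `A` -/
def rX1 : Place Kb ↥(F1Bar M) → Place (ResidueField ↥A) ↥(F1C M (ResidueField ↥A)) :=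
  (reductionInputs M A hA hℓM).choose

theorem isPlaceReduction_rX1 :
    IsPlaceReductionAlongG A (residue ↥A) (F1 M) (F1C M (ResidueField ↥A)) (rX1 M A hA hℓM) :=
  (reductionInputs M A hA hℓM).choose_spec.1

theorem principalGenerated :
    PrincipalGeneratedByIntegralG A (residue ↥A) (F1 M) (F1C M (ResidueField ↥A)) :=
  (reductionInputs M A hA hℓM).choose_spec.2

/-- the representation `f = c · a / b` of every function -/
theorem hasRep : HasRep A (residue ↥A) (F1 M) (F1C M (ResidueField ↥A)) :=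
  Fermat.Agent.S48.B.Red.Gauss1.hasRep₁ (isFF_jL M) (reductionInputs M A hA hℓM)

/-- the reduction datum of `X₁(M)` at `A` (the abstract frame of S18/Core) -/
def redDatumX1 : RedDatum (FL := ↥(F1Bar M)) (Fk := ↥(F1C M (ResidueField ↥A))) A (residue ↥A)
    (rX1 M A hA hℓM) :=
  Fermat.Agent.S48.B.Red.Gauss1.redDatum₁ (isFF_jL M) (reductionInputs M A hA hℓM)

theorem redDatumX1_O :
    (redDatumX1 M A hA hℓM).O = OwV A (residue ↥A) (F1 M) (F1C M (ResidueField ↥A))
      (hasRep M A hA hℓM) := rfl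

theorem redDatumX1_red :
    (redDatumX1 M A hA hℓM).red = redV A (residue ↥A) (F1 M) (F1C M (ResidueField ↥A))
      (hasRep M A hA hℓM) := rfl

theorem rX1_surjective : Function.Surjective (rX1 M A hA hℓM) :=
  Fermat.Agent.S48.B.Red.Gauss1.placeReduction_surjective₁ (isFF_jL M)
    (reductionInputs M A hA hℓM)

theorem red_surjective : Function.Surjective (redDatumX1 M A hA hℓM).red :=
  Fermat.Agent.S48.B.Red.Gauss1.red_surjective₁ (isFF_jL M) (reductionInputs M A hA hℓM)

/-! ### (F4) Riemann's theorem on both fibres, same genus -/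

/-- **Riemann's theorem on both fibres with the same genus.** -/
theorem exists_genus :
    ∃ g : ℕ, RiemannHyp Kb ↥(F1Bar M) g ∧
      RiemannHyp (ResidueField ↥A) ↥(F1C M (ResidueField ↥A)) g := by
  haveI := isAlgClosed_k A
  haveI := hasPrincipalDivisors_L M
  haveI := hasPrincipalDivisors_k M A hA hℓM
  haveI : FiniteDimensional
      ↥(ResidueField ↥A)⟮Basics.jC
        (Fermat.Agent.S48.B.Red.Seams.jqModC_mem_F1C M (ResidueField ↥A))⟯
      ↥(F1C M (ResidueField ↥A)) := finiteDimensional_jk M A hA hℓM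
  obtain ⟨gL, HL, -⟩ := Basics.exists_genus_L (isFF_jL M)
  obtain ⟨gk, Hk, -⟩ := Basics.exists_genus_k
    (Fermat.Agent.S48.B.Red.Seams.jqModC_mem_F1C M (ResidueField ↥A))
  have heq : gk = gL := Fermat.Agent.S43.LG1.C1.HypX1.genus_eq_X1 (igusa M)
    (Fact.out : ℓ.Prime) hℓM hA HL Hk
  exact ⟨gL, HL, heq ▸ Hk⟩

theorem deg_eq_one_k (Q : Place (ResidueField ↥A) ↥(F1C M (ResidueField ↥A))) : Q.deg = 1 := by
  obtain ⟨g, -, Hk⟩ := exists_genus M A hA hℓM
  exact Hk.deg_one Q

/-! ### (F5) the unramified-almost-everywhere element `j` -/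

/-- `j` as an element of the Gauss valuation ring of the datum -/
def jX1 : ↥(redDatumX1 M A hA hℓM).O :=
  ⟨jgen1 M, Fermat.Agent.S48.B.Red.Gauss1.jgen1_mem_O (isFF_jL M) (reductionInputs M A hA hℓM)⟩

theorem coe_jX1 :
    ((jX1 M A hA hℓM : ↥(redDatumX1 M A hA hℓM).O) : ↥(F1Bar M)) = jgen1 M := rfl

theorem red_jX1 : (redDatumX1 M A hA hℓM).red (jX1 M A hA hℓM) = jC M (ResidueField ↥A) :=
  Fermat.Agent.S48.B.Red.Gauss1.red_jgen1 (isFF_jL M) (reductionInputs M A hA hℓM)

/-- all but finitely many places of `F_k` are simple zeros of some `j̄ - γ` -/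
theorem finite_not_simple :
    {Q : Place (ResidueField ↥A) ↥(F1C M (ResidueField ↥A)) |
      ¬ ∃ γ : ResidueField ↥A, Q.ord ((redDatumX1 M A hA hℓM).red (jX1 M A hA hℓM) -
        algebraMap (ResidueField ↥A) ↥(F1C M (ResidueField ↥A)) γ) = 1}.Finite := by
  haveI := isAlgClosed_k A
  rw [red_jX1]
  exact Unram.finite_not_simple (isFF_jk M A hA hℓM) (isSeparable_jk M A hA hℓM)

/-! ### (F6) the decomposition group -/

/-- the fibre hypothesis of `X₁(M)` at `A` -/
theorem fibreHyp : Fermat.Agent.S48.B.Red.Equiv1.PlaceEquiv1.FibreHyp1 M A :=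
  Fermat.Agent.S48.B.Red.Fibre1.fibreHyp1_of (igusa M) (Fermat.Agent.S48.B.B1.Main.deg1 M)
    (Fact.out : ℓ.Prime) hℓM hA

/-- the place reduction commutes with the decomposition group -/
theorem rX1_smul (g : A.decompositionSubgroup ℚ) (P : Place Kb ↥(F1Bar M)) :
    rX1 M A hA hℓM (arithmeticGalois (F1 M) (g : Kb ≃ₐ[ℚ] Kb) • P)
      = coeffAut₁ M (ResidueField ↥A) (resAut A g) • rX1 M A hA hℓM P :=
  Fermat.Agent.S48.B.Red.Equiv1.PlaceEquiv1.placeMap_smul (fibreHyp M A hA hℓM)
    (isPlaceReduction_rX1 M A hA hℓM) (principalGenerated M A hA hℓM) g P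

/-- inertia acts trivially on the reduction of places -/
theorem rX1_smul_inertia {σ : Kb ≃ₐ[ℚ] Kb} (hσ : σ ∈ A.inertiaSubgroupIn ℚ)
    (P : Place Kb ↥(F1Bar M)) :
    rX1 M A hA hℓM (arithmeticGalois (F1 M) σ • P) = rX1 M A hA hℓM P := by
  obtain ⟨g, rfl, hg⟩ := exists_of_mem_inertiaSubgroupIn A hσ
  rw [rX1_smul M A hA hℓM g P, hg, map_one, one_smul]

/-! ### (F6b) the Gauss valuation ring and its reduction under the decomposition group -/

/-- the Gauss valuation ring is stable under the decomposition group, and the reduction is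
equivariant (twisted by the induced automorphism of the residue field) -/
theorem red_smul (g : A.decompositionSubgroup ℚ) (f : ↥(redDatumX1 M A hA hℓM).O) :
    ∃ hf : arithmeticGalois (F1 M) (g : Kb ≃ₐ[ℚ] Kb) • (f : ↥(F1Bar M))
        ∈ (redDatumX1 M A hA hℓM).O,
      (redDatumX1 M A hA hℓM).red ⟨_, hf⟩
        = coeffAut₁ M (ResidueField ↥A) (resAut A g) • (redDatumX1 M A hA hℓM).red f :=
  Fermat.Agent.S43.LG1.C1.GaussEquivG.redV_smul_decomposition A
    (coeffStable_F1C M (ResidueField ↥A)) (hasRep M A hA hℓM) g f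

/-- inertia: the Gauss valuation ring is stable and the reduction is invariant -/
theorem red_smul_inertia {σ : Kb ≃ₐ[ℚ] Kb} (hσ : σ ∈ A.inertiaSubgroupIn ℚ)
    (f : ↥(redDatumX1 M A hA hℓM).O) :
    ∃ hf : arithmeticGalois (F1 M) σ • (f : ↥(F1Bar M)) ∈ (redDatumX1 M A hA hℓM).O,
      (redDatumX1 M A hA hℓM).red ⟨_, hf⟩ = (redDatumX1 M A hA hℓM).red f :=
  Fermat.Agent.S43.LG1.C1.GaussEquivG.redV_smul_inertia A
    (coeffStable_F1C M (ResidueField ↥A)) (hasRep M A hA hℓM) hσ f

/-! ### (F7) orthonormal reduction of finite-dimensional subspaces -/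

/-- **Orthonormal reduction**: every finite-dimensional `ℚ̄`-subspace `W` of `F_L` contains
`finrank W` elements of the Gauss valuation ring whose reductions are `k`-linearly independent. -/
theorem exists_red_independent (W : Submodule Kb ↥(F1Bar M)) [FiniteDimensional Kb W] :
    ∃ g : Fin (Module.finrank Kb W) → ↥(redDatumX1 M A hA hℓM).O,
      (∀ j, ((g j : ↥(redDatumX1 M A hA hℓM).O) : ↥(F1Bar M)) ∈ W) ∧
      LinearIndependent (ResidueField ↥A) fun j => (redDatumX1 M A hA hℓM).red (g j) := by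
  haveI := isAlgClosed_k A
  obtain ⟨n, u, bL, bk, hbL, hbk⟩ := Fermat.Agent.S48.B.Red.Bases1.exists_basis_O_igusa (igusa M)
    (Fact.out : ℓ.Prime) hℓM hA
  have hj := Fermat.Agent.S48.B.Red.Bases1.red_jgen1_igusa (igusa M) (Fact.out : ℓ.Prime) hℓM hA
  exact Fermat.Agent.S37.Deuring.OrthoBasis2.exists_red_independent_of_basis
    (Fermat.Agent.S48.B.Red.Bases1.gaussDatumIgusa (igusa M) (Fact.out : ℓ.Prime) hℓM hA)
    ⟨jgen1 M, Fermat.Agent.S48.B.Red.Bases1.jgen1_mem_O_igusa (igusa M) (Fact.out : ℓ.Prime) hℓM hA⟩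
    u
    (by rw [hj]; exact (isFF_jk M A hA hℓM).transcendental)
    (by
      rw [hj]
      have h1 : (fun i => (Fermat.Agent.S48.B.Red.Bases1.gaussDatumIgusa (igusa M)
          (Fact.out : ℓ.Prime) hℓM hA).red (u i)) = fun i => bk i :=
        funext fun i => (hbk i).symm
      rw [h1]
      exact bk.linearIndependent)
    (by
      have h1 : (fun i => ((u i : ↥(Fermat.Agent.S48.B.Red.Bases1.gaussDatumIgusa (igusa M)
          (Fact.out : ℓ.Prime) hℓM hA).O) : ↥(F1Bar M))) = fun i => bL i :=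
        funext fun i => (hbL i).symm
      rw [h1]
      exact bL.span_eq.ge) W

end Fermat.Agent.S43.Flat1.FrameX1
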