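import Mathlib
import Fermat.Agent.S43.Flat1.FrameX1
import Fermat.Agent.S19.ArithX0
import Fermat.Agent.S19.RedSymm
import Fermat.Agent.S19.SymmX0

/-!
# PROJECT R (S43), block FLAT1, file `SymmX1` (helper8): the decomposition group acts on the
reduction datum of `X₁(M)`

Twin of main's `S19/SymmX0`.  For `A : ValuationSubring ℚ̄` over `ℓ ∤ M` and `g` in the
decomposition group of `A`: `symmX1 g : RedSymm.Symm (redDatumX1 M A hA hℓM)` with
`gL = arithmeticGalois (F1 M) g` and `gk = coeffAut₁ M k (resAut A g)`.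
Elements of the inertia group give inertial symmetries.
-/

set_option autoImplicit false
set_option synthInstance.maxHeartbeats 400000
set_option linter.unusedSectionVars false
set_option linter.style.haveILetI false

noncomputable section

namespace Fermat.Agent.S43.Flat1.SymmX1

open AlgebraicCurve ModularCurve IntermediateField IsLocalRing
open Fermat.Agent.S18.CoreDefs
open Fermat.Agent.S37.Equivariance.GaussEquiv
open Fermat.Agent.S48.B.Defs.Model
open Fermat.Agent.S48.B.Red.CoeffAut1
open Fermat.Agent.S43.Flat1.FrameX1 Fermat.Agent.S19.RedSymm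

local notation "Kb" => AlgebraicClosure ℚ

attribute [local instance] Fermat.Agent.S43.LG1.C1.LevelMSurjX1.algKappa

variable {ℓ : ℕ} [Fact ℓ.Prime] (M : ℕ) [NeZero M] (A : ValuationSubring Kb)

theorem baseAut_arithmeticGalois_apply (σ : Kb ≃ₐ[ℚ] Kb) (a : Kb) :
    SemilinearAut.baseAut (arithmeticGalois (F1 M) σ) a = σ a := by
  rw [baseAut_arithmeticGalois]
  rfl

theorem mem_A_of_decomposition (g : A.decompositionSubgroup ℚ) (a : Kb) :
    (g : Kb ≃ₐ[ℚ] Kb) a ∈ A ↔ a ∈ A :=
  Fermat.Agent.S19.SymmX0.mem_A_of_decomposition A g a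

variable (hA : A.LiesOverPrime ℓ) (hℓM : ¬ ℓ ∣ M)

/-- the symmetry of the reduction datum of `X₁(M)` attached to an element of the decomposition
group -/
def symmX1 (g : A.decompositionSubgroup ℚ) : Symm (redDatumX1 M A hA hℓM) where
  gL := arithmeticGalois (F1 M) (g : Kb ≃ₐ[ℚ] Kb)
  gk := coeffAut₁ M (ResidueField ↥A) (resAut A g)
  mem_A a := by
    rw [baseAut_arithmeticGalois_apply]
    exact mem_A_of_decomposition A g a
  pi_comm a := by
    rw [baseAut_coeffAut]
    exact (compat A g).res a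
  r_comm P := rX1_smul M A hA hℓM g P
  mem_O f := Fermat.Agent.S43.LG1.C1.GaussEquivG.mem_OwV_iff_of_compat
    (coeffStable_F1C M (ResidueField ↥A)) (hasRep M A hA hℓM) (compat A g)
  red_comm f := (red_smul M A hA hℓM g f).choose_spec

@[simp] theorem symmX1_gL (g : A.decompositionSubgroup ℚ) :
    (symmX1 M A hA hℓM g).gL = arithmeticGalois (F1 M) (g : Kb ≃ₐ[ℚ] Kb) :=
  rfl

@[simp] theorem symmX1_gk (g : A.decompositionSubgroup ℚ) :
    (symmX1 M A hA hℓM g).gk = coeffAut₁ M (ResidueField ↥A) (resAut A g) := rfl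

/-- elements of the inertia group give inertial symmetries -/
theorem isInertial_symmX1 {g : A.decompositionSubgroup ℚ} (hg : resAut A g = 1) :
    (symmX1 M A hA hℓM g).IsInertial := by
  show coeffAut₁ M (ResidueField ↥A) (resAut A g) = 1
  rw [hg, map_one]

/-- for `σ` in the inertia group: an inertial symmetry with `gL = arithmeticGalois σ` -/
theorem exists_inertial {σ : Kb ≃ₐ[ℚ] Kb} (hσ : σ ∈ A.inertiaSubgroupIn ℚ) :
    ∃ s : Symm (redDatumX1 M A hA hℓM), s.IsInertial ∧
      s.gL = arithmeticGalois (F1 M) σ := by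
  obtain ⟨g, rfl, hg⟩ := exists_of_mem_inertiaSubgroupIn A hσ
  exact ⟨symmX1 M A hA hℓM g, isInertial_symmX1 M A hA hℓM hg, rfl⟩

/-- the action on constants: `mapA` is `σ` -/
theorem coe_mapA_symmX1 (g : A.decompositionSubgroup ℚ) (a : A) :
    (((symmX1 M A hA hℓM g).mapA a : A) : Kb) = (g : Kb ≃ₐ[ℚ] Kb) (a : Kb) := by
  rw [Symm.coe_mapA]
  exact baseAut_arithmeticGalois_apply M _ _

end Fermat.Agent.S43.Flat1.SymmX1
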