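import Mathlib
import Fermat.Agent.S43.Flat1.SymmX1

/-!
# PROJECT R (S43), block FLAT1, file `ChartX1` (helper8): inertia-fixed chart data on `X₁(M)`,
`ℓ ∤ M` (twin of main's `S19/ChartX0`)

* `Bad0` : the finite set of places of `F_k` that are ramified for `j̄` or reductions of poles of `j`;
* `exists_fixed_param` : for `Q ∉ Bad0` a constant `c ∈ WQ A = A^I` such that `T = j - c` is a good
  parameter on the disc of `Q`, with zero `P0`; `T` and `P0` are fixed by the inertia group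
  (so `P0` is a `K0`-rational place);
* `exists_chart_data` : for every finite `Bad` a rigid family of `g` such places, off `Bad`;
* `exists_chart_data_pair` : two disjoint such families (`(Qb, Q, T)` and `(Rb, Rp, v)` of the
  interpolation datum);
* the decomposition group transports such data.
-/

set_option autoImplicit false
set_option synthInstance.maxHeartbeats 400000
set_option linter.unusedSectionVars false
set_option linter.style.haveILetI false

noncomputable section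

namespace Fermat.Agent.S43.Flat1.ChartX1

open AlgebraicCurve ModularCurve IntermediateField IsLocalRing
open Fermat.Agent.S18.CoreDefs Fermat.Agent.S18.CoreOrd Fermat.Agent.S18.Disc
open Fermat.Agent.S18.NonSpecial Fermat.Agent.S18.NonSpecialAdapter Fermat.Agent.S24.Ord
open Fermat.Agent.S37.Equivariance.GaussEquiv
open Fermat.Agent.S48.B.Defs.Model
open Fermat.Agent.S48.B.B1.Seams (jgen1)
open Fermat.Agent.S48.B.Red.CoeffAut1
open Fermat.Agent.S43.Flat1.FrameX1 Fermat.Agent.S19.RedSymm Fermat.Agent.S43.Flat1.SymmX1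
open Fermat.Agent.S19.ArithX0

local notation "Kb" => AlgebraicClosure ℚ

attribute [local instance] Fermat.Agent.S43.LG1.C1.LevelMSurjX1.algKappa

variable {ℓ : ℕ} [Fact ℓ.Prime] (M : ℕ) [NeZero M] (A : ValuationSubring Kb)
variable (hA : A.LiesOverPrime ℓ) (hℓM : ¬ ℓ ∣ M)

/-- the parameter `j - c` -/
def Tc (c : A) : ↥(redDatumX1 M A hA hℓM).O :=
  jX1 M A hA hℓM - constHom (redDatumX1 M A hA hℓM) c

theorem coe_Tc (c : A) :
    ((Tc M A hA hℓM c : ↥(redDatumX1 M A hA hℓM).O) : ↥(F1Bar M))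
      = jgen1 M
        - algebraMap Kb ↥(F1Bar M) (c : Kb) := rfl

/-- `j - c` is moved to `j - σ c` -/
theorem smul_Tc (σ : Kb ≃ₐ[ℚ] Kb) (c : A) :
    arithmeticGalois (F1 M) σ •
        ((Tc M A hA hℓM c : ↥(redDatumX1 M A hA hℓM).O) : ↥(F1Bar M))
      = jgen1 M
        - algebraMap Kb ↥(F1Bar M) (σ (c : Kb)) := by
  rw [coe_Tc, smul_sub, Fermat.Agent.S48.B.Red.Equiv1.PlaceEquiv1.smul_jgen1 M,
    SemilinearAut.smul_algebraMap, baseAut_arithmeticGalois_apply]

/-- `j - c` is fixed by `σ` when `c` is -/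
theorem smul_Tc_of_fixed {σ : Kb ≃ₐ[ℚ] Kb} {c : A} (hc : σ (c : Kb) = (c : Kb)) :
    arithmeticGalois (F1 M) σ •
        ((Tc M A hA hℓM c : ↥(redDatumX1 M A hA hℓM).O) : ↥(F1Bar M))
      = ((Tc M A hA hℓM c : ↥(redDatumX1 M A hA hℓM).O) : ↥(F1Bar M)) := by
  rw [smul_Tc, hc, coe_Tc]

theorem red_Tc (c : A) :
    (redDatumX1 M A hA hℓM).red (Tc M A hA hℓM c)
      = (redDatumX1 M A hA hℓM).red (jX1 M A hA hℓM) -
        algebraMap (ResidueField ↥A) ↥(F1C M (ResidueField ↥A))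
          (residue ↥A c) :=
  (map_sub (redDatumX1 M A hA hℓM).red (jX1 M A hA hℓM)
    (constHom (redDatumX1 M A hA hℓM) c)).trans
    (congrArg (fun z => (redDatumX1 M A hA hℓM).red (jX1 M A hA hℓM) - z)
      (red_constHom (redDatumX1 M A hA hℓM) c))

/-- the bad places of the special fibre: ramified for `j̄`, or reduction of a pole of `j` -/
def Bad0 : Set (Place (ResidueField ↥A) ↥(F1C M (ResidueField ↥A))) :=
  {Q | ¬ ∃ γ : ResidueField ↥A, Q.ord ((redDatumX1 M A hA hℓM).red (jX1 M A hA hℓM) -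
      algebraMap (ResidueField ↥A) ↥(F1C M (ResidueField ↥A)) γ) = 1} ∪
    rX1 M A hA hℓM '' {P | P.ord (jgen1 M) < 0}

theorem finite_Bad0 : (Bad0 M A hA hℓM).Finite := by
  haveI := hasPrincipalDivisors_L M
  exact (finite_not_simple M A hA hℓM).union
    ((Fermat.Agent.S18.Core.finite_poles (jgen1 M)).image _)

include hA in
/-- constants of the residue field lift to `WQ A = A^I` -/
theorem exists_WQ_lift (γ : ResidueField ↥A) :
    ∃ c : A, (c : Kb) ∈ WQ A ∧ residue ↥A c = γ := by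
  obtain ⟨w, hw⟩ := Fermat.Agent.S18.C.SmallDVR.exists_residue_toA_eq hA γ
  exact ⟨Fermat.Agent.S18.C.SmallDVR.toA A w, coe_mem_WQ w, hw⟩

/-- **inertia-fixed good parameter.** For `Q ∉ Bad0` there are `c ∈ WQ A` and a place `P0` such
that `j - c` is a good parameter on the disc of `Q` with zero `P0`, and `P0` is fixed by the
inertia group. -/
theorem exists_fixed_param
    (Q : Place (ResidueField ↥A) ↥(F1C M (ResidueField ↥A)))
    (hQ : Q ∉ Bad0 M A hA hℓM) :
    ∃ (c : A) (P0 : Place Kb ↥(F1Bar M)), (c : Kb) ∈ WQ A ∧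
      IsGoodParam (redDatumX1 M A hA hℓM) (Tc M A hA hℓM c) Q ∧
      rX1 M A hA hℓM P0 = Q ∧
      0 < P0.ord ((Tc M A hA hℓM c : ↥(redDatumX1 M A hA hℓM).O) :
        ↥(F1Bar M)) ∧
      ∀ σ ∈ A.inertiaSubgroupIn ℚ, arithmeticGalois (F1 M) σ • P0 = P0 := by
  haveI := hasPrincipalDivisors_L M
  have hQ1 : ∃ γ : ResidueField ↥A, Q.ord ((redDatumX1 M A hA hℓM).red (jX1 M A hA hℓM) -
      algebraMap (ResidueField ↥A) ↥(F1C M (ResidueField ↥A)) γ) = 1 := by
    by_contra hcon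
    exact hQ (Or.inl hcon)
  have hQ2 : RegOn (rX1 M A hA hℓM) (jgen1 M) Q := by
    apply regOn_of_ord_nonneg
    intro P hP
    by_contra hcon
    rw [not_le] at hcon
    exact hQ (Or.inr ⟨P, hcon, hP⟩)
  obtain ⟨γ, hγ⟩ := hQ1
  obtain ⟨c, hcW, rfl⟩ := exists_WQ_lift A hA γ
  have hgood : IsGoodParam (redDatumX1 M A hA hℓM) (Tc M A hA hℓM c) Q := by
    refine ⟨?_, ?_⟩
    · rw [coe_Tc]
      exact hQ2.sub (regOn_const _ _ Q)
    · rw [red_Tc]
      exact hγ
  obtain ⟨P0, hP0, hord, -⟩ := hgood.exists_unique_zero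
  refine ⟨c, P0, hcW, hgood, hP0, by rw [hord]; exact one_pos, fun σ hσ => ?_⟩
  obtain ⟨s, hs, hsL⟩ := exists_inertial M A hA hℓM hσ
  rw [← hsL]
  refine hs.smul_zero_eq hgood ?_ hP0 (by rw [hord]; exact one_pos)
  rw [hsL]
  exact smul_Tc_of_fixed M A hA hℓM (inertia_fixed hcW hσ)

/-- inertia-fixedness of the zero of `j - c`, `c ∈ WQ A`, on any disc where it is a good
parameter -/
theorem smul_zero_of_mem_WQ {c : A} (hc : (c : Kb) ∈ WQ A)
    {Q : Place (ResidueField ↥A) ↥(F1C M (ResidueField ↥A))}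
    (hgood : IsGoodParam (redDatumX1 M A hA hℓM) (Tc M A hA hℓM c) Q)
    {P0 : Place Kb ↥(F1Bar M)} (hP0 : rX1 M A hA hℓM P0 = Q)
    (hz : 0 < P0.ord ((Tc M A hA hℓM c : ↥(redDatumX1 M A hA hℓM).O) :
      ↥(F1Bar M)))
    {σ : Kb ≃ₐ[ℚ] Kb} (hσ : σ ∈ A.inertiaSubgroupIn ℚ) :
    arithmeticGalois (F1 M) σ • P0 = P0 := by
  haveI := hasPrincipalDivisors_L M
  obtain ⟨s, hs, hsL⟩ := exists_inertial M A hA hℓM hσ
  rw [← hsL]
  refine hs.smul_zero_eq hgood ?_ hP0 hz
  rw [hsL]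
  exact smul_Tc_of_fixed M A hA hℓM (inertia_fixed hc hσ)

/-! ### chart data -/

/-- A rigid family of `g` discs with inertia-fixed parameters `j - c i` and their zeros. -/
structure ChartData (g : ℕ) where
  /-- the centres on the special fibre -/
  Qb : Fin g → Place (ResidueField ↥A) ↥(F1C M (ResidueField ↥A))
  /-- the constants: the parameter on the `i`-th disc is `j - c i` -/
  c : Fin g → A
  /-- the zeros of the parameters -/
  Q : Fin g → Place Kb ↥(F1Bar M)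
  Qb_inj : Function.Injective Qb
  rigid : ∀ y : ↥(F1C M (ResidueField ↥A)),
    y ∈ riemannRochSpace (∑ i, Finsupp.single (Qb i) (1 : ℤ)) →
      ∃ γ : ResidueField ↥A,
        y = algebraMap (ResidueField ↥A) ↥(F1C M (ResidueField ↥A)) γ
  hc : ∀ i, ((c i : A) : Kb) ∈ WQ A
  good : ∀ i, IsGoodParam (redDatumX1 M A hA hℓM) (Tc M A hA hℓM (c i)) (Qb i)
  hQ : ∀ i, rX1 M A hA hℓM (Q i) = Qb i
  zero : ∀ i, 0 < (Q i).ord ((Tc M A hA hℓM (c i) : ↥(redDatumX1 M A hA hℓM).O) :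
    ↥(F1Bar M))

namespace ChartData

variable {M A hA hℓM} {g : ℕ} (d : ChartData M A hA hℓM g)

/-- the parameters -/
def T (i : Fin g) : ↥(redDatumX1 M A hA hℓM).O := Tc M A hA hℓM (d.c i)

/-- the parameters are fixed by the inertia group -/
theorem smul_T {σ : Kb ≃ₐ[ℚ] Kb} (hσ : σ ∈ A.inertiaSubgroupIn ℚ) (i : Fin g) :
    arithmeticGalois (F1 M) σ •
        ((d.T i : ↥(redDatumX1 M A hA hℓM).O) : ↥(F1Bar M))
      = ((d.T i : ↥(redDatumX1 M A hA hℓM).O) : ↥(F1Bar M)) :=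
  smul_Tc_of_fixed M A hA hℓM (inertia_fixed (d.hc i) hσ)

/-- the zeros of the parameters are fixed by the inertia group -/
theorem smul_Q {σ : Kb ≃ₐ[ℚ] Kb} (hσ : σ ∈ A.inertiaSubgroupIn ℚ) (i : Fin g) :
    arithmeticGalois (F1 M) σ • d.Q i = d.Q i :=
  smul_zero_of_mem_WQ M A hA hℓM (d.hc i) (d.good i) (d.hQ i) (d.zero i) hσ

theorem Q_inj : Function.Injective d.Q := fun i i' h =>
  d.Qb_inj (by rw [← d.hQ i, ← d.hQ i', h])

theorem zero' (i : Fin g) :
    (d.Q i).adicValuation ((d.T i : ↥(redDatumX1 M A hA hℓM).O) :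
      ↥(F1Bar M)) < 1 := by
  haveI := hasPrincipalDivisors_L M
  exact (ord_pos_iff (d.Q i) (d.good i).coe_ne_zero).mp (d.zero i)

end ChartData

/-- the decomposition group moves `j - c` to `j - σ c` -/
theorem mapO_Tc (γ : A.decompositionSubgroup ℚ) (c : A) :
    (symmX1 M A hA hℓM γ).mapO (Tc M A hA hℓM c)
      = Tc M A hA hℓM ((symmX1 M A hA hℓM γ).mapA c) := by
  apply Subtype.ext
  rw [Symm.coe_mapO, symmX1_gL, smul_Tc, coe_Tc, coe_mapA_symmX1]

/-- **transport of chart data by the decomposition group** -/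
def ChartData.smul {g : ℕ} (γ : A.decompositionSubgroup ℚ) (d : ChartData M A hA hℓM g) :
    ChartData M A hA hℓM g where
  Qb i := (symmX1 M A hA hℓM γ).gk • d.Qb i
  c i := (symmX1 M A hA hℓM γ).mapA (d.c i)
  Q i := (symmX1 M A hA hℓM γ).gL • d.Q i
  Qb_inj i i' h := d.Qb_inj (MulAction.injective _ h)
  rigid := rigid_smul _ d.Qb d.rigid
  hc i := by
    rw [coe_mapA_symmX1]
    exact map_mem_WQ_of_mem_decomposition γ.2 (d.hc i)
  good i := by
    rw [← mapO_Tc]
    exact (symmX1 M A hA hℓM γ).isGoodParam_smul (d.good i)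
  hQ i := by rw [(symmX1 M A hA hℓM γ).r_comm, d.hQ i]
  zero i := by
    rw [← mapO_Tc, Symm.coe_mapO]
    exact (symmX1 M A hA hℓM γ).ord_pos_smul (d.zero i)

theorem ChartData.smul_T_eq {g : ℕ} (γ : A.decompositionSubgroup ℚ)
    (d : ChartData M A hA hℓM g) (i : Fin g) :
    (d.smul M A hA hℓM γ).T i = (symmX1 M A hA hℓM γ).mapO (d.T i) :=
  (mapO_Tc M A hA hℓM γ (d.c i)).symm

/-- **existence of chart data** off any finite set of places of the special fibre -/
theorem exists_chartData {g : ℕ}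
    (hk : RiemannHyp (ResidueField ↥A) ↥(F1C M (ResidueField ↥A)) g)
    (Bad : Set (Place (ResidueField ↥A) ↥(F1C M (ResidueField ↥A))))
    (hBad : Bad.Finite) :
    ∃ d : ChartData M A hA hℓM g, (∀ i, d.Qb i ∉ Bad) ∧ ∀ i, d.Qb i ∉ Bad0 M A hA hℓM := by
  obtain ⟨Qb, hinj, hoff, hrigid⟩ :=
    rigidGeneric_of_riemannHyp hk le_rfl (Bad ∪ Bad0 M A hA hℓM)
      (hBad.union (finite_Bad0 M A hA hℓM))
  have h0 : ∀ i, Qb i ∉ Bad0 M A hA hℓM := fun i h => hoff i (Or.inr h)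
  choose c P0 hcW hgood hP0 hz _ using fun i => exists_fixed_param M A hA hℓM (Qb i) (h0 i)
  exact ⟨⟨Qb, c, P0, hinj, hrigid, hcW, hgood, hP0, hz⟩, fun i h => hoff i (Or.inl h), h0⟩

/-- two disjoint chart data (the origin chart `(Qb, Q, T)` and the auxiliary family
`(Rb, Rp, v)` of the interpolation datum), off any finite set -/
theorem exists_chartData_pair {g : ℕ}
    (hk : RiemannHyp (ResidueField ↥A) ↥(F1C M (ResidueField ↥A)) g)
    (Bad : Set (Place (ResidueField ↥A) ↥(F1C M (ResidueField ↥A))))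
    (hBad : Bad.Finite) :
    ∃ d d' : ChartData M A hA hℓM g, (∀ i, d.Qb i ∉ Bad) ∧ (∀ j, d'.Qb j ∉ Bad) ∧
      ∀ i j, d.Qb i ≠ d'.Qb j := by
  obtain ⟨d, hd, -⟩ := exists_chartData M A hA hℓM hk Bad hBad
  obtain ⟨d', hd', -⟩ := exists_chartData M A hA hℓM hk (Bad ∪ Set.range d.Qb)
    (hBad.union (Set.finite_range _))
  exact ⟨d, d', hd, fun j h => hd' j (Or.inl h), fun i j h => hd' j (Or.inr ⟨i, h⟩)⟩

end Fermat.Agent.S43.Flat1.ChartX1
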