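import Mathlib
import Fermat.Agent.S43.Flat1.ChartX1
import Fermat.Agent.S19.RedSymmJ1

/-!
# PROJECT R (S43), block FLAT1, file `BaseX1` (helper8): the kernel of reduction of `J₁(M)(ℚ̄)` and
the inertia group (twin of main's `S19/BaseX0`; the Galois action is the UNTWISTED one of `J1 M`)

`J1X1 := Chart.J1 (rX1 M A hA hℓM)`, the kernel of reduction at `A` (`ℓ ∤ M`).

* `J1_inertia` : `τ • x - x ∈ J1X1` for `τ` in the inertia group;
* `J1_decomposition` : `σ • x ∈ J1X1 ↔ x ∈ J1X1` for `σ` in the decomposition group;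
* `exists_section` : a section of the reduction of places off `Bad0` with inertia-fixed values;
* `base` : **(W7)** every class `x` has an inertia-fixed class `y` with `x - y ∈ J1X1`
  (moving lemma on the special fibre + inertia-fixed lifts of the places off `Bad0`).
-/

set_option autoImplicit false
set_option synthInstance.maxHeartbeats 400000
set_option linter.unusedSectionVars false
set_option linter.style.haveILetI false

noncomputable section

namespace Fermat.Agent.S43.Flat1.BaseX1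

open AlgebraicCurve ModularCurve IntermediateField IsLocalRing
open Fermat.Agent.S18.CoreDefs Fermat.Agent.S18.CoreOrd Fermat.Agent.S18.Disc
open Fermat.Agent.S37.Equivariance.GaussEquiv
open Fermat.Agent.S48.B.Defs.Model
open Fermat.Agent.S48.B.Red.CoeffAut1
open Fermat.Agent.S43.Flat1.FrameX1 Fermat.Agent.S19.RedSymm Fermat.Agent.S43.Flat1.SymmX1
open Fermat.Agent.S19.ArithX0 Fermat.Agent.S43.Flat1.ChartX1
open Fermat.Agent.S19.RedSymmJ1

local notation "Kb" => AlgebraicClosure ℚ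

attribute [local instance] Fermat.Agent.S43.LG1.C1.LevelMSurjX1.algKappa

variable {ℓ : ℕ} [Fact ℓ.Prime] (M : ℕ) [NeZero M] (A : ValuationSubring Kb)
variable (hA : A.LiesOverPrime ℓ) (hℓM : ¬ ℓ ∣ M)

/-- the kernel of reduction -/
def J1X1 : AddSubgroup (J1 M) := Fermat.Agent.S19.Chart.J1 (rX1 M A hA hℓM)

/-- **`J1_σ`**: the kernel of reduction is stable under the decomposition group -/
theorem J1_decomposition (γ : A.decompositionSubgroup ℚ) (x : J1 M) :
    (γ : Kb ≃ₐ[ℚ] Kb) • x ∈ J1X1 M A hA hℓM ↔ x ∈ J1X1 M A hA hℓM :=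
  smul_mem_J1_iff (symmX1 M A hA hℓM γ) x

/-- **`J1_I`**: inertia acts trivially modulo the kernel of reduction -/
theorem J1_inertia {τ : Kb ≃ₐ[ℚ] Kb} (hτ : τ ∈ A.inertiaSubgroupIn ℚ) (x : J1 M) :
    τ • x - x ∈ J1X1 M A hA hℓM := by
  obtain ⟨s, hs, hsL⟩ := exists_inertial M A hA hℓM hτ
  have := smul_sub_mem_J1 hs x
  rwa [hsL] at this

/-- a section of the reduction of places off `Bad0`, with inertia-fixed values -/
theorem exists_section :
    ∃ s : Place (ResidueField ↥A) ↥(F1C M (ResidueField ↥A)) →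
        Place Kb ↥(F1Bar M),
      (∀ Q, Q ∉ Bad0 M A hA hℓM → rX1 M A hA hℓM (s Q) = Q) ∧
      ∀ Q, Q ∉ Bad0 M A hA hℓM → ∀ σ ∈ A.inertiaSubgroupIn ℚ,
        arithmeticGalois (F1 M) σ • s Q = s Q := by
  classical
  have h : ∀ Q : Place (ResidueField ↥A) ↥(F1C M (ResidueField ↥A)),
      ∃ P : Place Kb ↥(F1Bar M), Q ∉ Bad0 M A hA hℓM →
        (rX1 M A hA hℓM P = Q ∧ ∀ σ ∈ A.inertiaSubgroupIn ℚ,
          arithmeticGalois (F1 M) σ • P = P) := by
    intro Q
    by_cases hQ : Q ∈ Bad0 M A hA hℓM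
    · obtain ⟨P, -⟩ := rX1_surjective M A hA hℓM Q
      exact ⟨P, fun h => absurd hQ h⟩
    · obtain ⟨c, P0, -, -, hP0, -, hfix⟩ := exists_fixed_param M A hA hℓM Q hQ
      exact ⟨P0, fun _ => ⟨hP0, hfix⟩⟩
  choose s hs using h
  exact ⟨s, fun Q hQ => (hs Q hQ).1, fun Q hQ => (hs Q hQ).2⟩

/-- **(W7) `base`**: every class has an inertia-fixed class in its coset modulo the kernel of
reduction -/
theorem base (x : J1 M) :
    ∃ y : J1 M, (∀ τ ∈ A.inertiaSubgroupIn ℚ, τ • y = y) ∧ x - y ∈ J1X1 M A hA hℓM := by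
  haveI := hasPrincipalDivisors_k M A hA hℓM
  obtain ⟨s, hs1, hs2⟩ := exists_section M A hA hℓM
  obtain ⟨y, hy1, hy2⟩ := exists_fixed_base (r := rX1 M A hA hℓM) (deg_eq_one_L M)
    (deg_eq_one_k M A hA hℓM) (Bad0 M A hA hℓM) (finite_Bad0 M A hA hℓM) s hs1
    {g | ∃ τ ∈ A.inertiaSubgroupIn ℚ, g = arithmeticGalois (F1 M) τ}
    (by
      rintro g ⟨τ, hτ, rfl⟩ Q hQ
      exact hs2 Q hQ τ hτ) x
  exact ⟨y, fun τ hτ => hy1 _ ⟨τ, hτ, rfl⟩, hy2⟩

end Fermat.Agent.S43.Flat1.BaseX1
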