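import Mathlib
import Fermat.Agent.S43.Tw.Defs
import Fermat.Agent.S48.B.Inst.Top
import Fermat.Agent.S48.B.Arith.Smooth1
import Fermat.Agent.S48.B.Chain.GalChar

/-!
# PROJECT R (S43), block FLAT1, file `TorsionX1` (helper8): the finite Galois module `J₁(M)^tw[k]`

Twin of main's `S19/TorsionX0` on the twisted Galois module `J1tw M m` of `Tw/Defs`.

`T M m k := Submodule.torsionBy ℤ (J1tw M m) k`:

* `mem_T_iff`, `finite_T` (for `k ≠ 0`, `5 ≤ M`), `smul_mem_T`;
* `galAct σ : T →+ T` (the TWISTED action), `galAct_one`, `galAct_mul`, `coe_galAct`,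
  `ofTw_galAct_of_cyc_eq_one` (an element with `cyc M σ = 1` acts as on `J1 M`),
  `ofTw_galAct_inertia` (this is the case of an inertia group at a prime not dividing `M`);
* `exists_finite_fixing` : every point of `J1tw M m` is fixed by `Gal(ℚ̄ / E)`, `E / ℚ` finite;
* `exists_finite_fixing_T` : an open subgroup `Gal(ℚ̄ / E)`, `E / ℚ` finite, fixes `T` pointwise.
-/

set_option autoImplicit false
set_option linter.unusedSectionVars false

noncomputable section

namespace Fermat.Agent.S43.Flat1.TorsionX1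

open ModularCurve
open Fermat.Agent.S48.B.Defs.Model Fermat.Agent.S48.B.Defs.Spec
open Fermat.Agent.S43.Tw.Defs

local notation "Kb" => AlgebraicClosure ℚ
local notation "GQ" => (AlgebraicClosure ℚ ≃ₐ[ℚ] AlgebraicClosure ℚ)

variable (M : ℕ) [NeZero M] (m : ℕ) (k : ℤ)

/-- the `k`-torsion of the twisted module `J₁(M)^tw(ℚ̄)` -/
abbrev T : Submodule ℤ (J1tw M m) := Submodule.torsionBy ℤ (J1tw M m) k

variable {M m k}

theorem mem_T_iff {x : J1tw M m} : x ∈ T M m k ↔ k • x = 0 := Submodule.mem_torsionBy_iff _ _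

theorem mem_T_iff_natAbs {x : J1tw M m} : x ∈ T M m k ↔ k.natAbs • x = 0 := by
  rw [mem_T_iff]
  rcases Int.natAbs_eq k with h | h
  · conv_lhs => rw [h, natCast_zsmul]
  · conv_lhs => rw [h, neg_smul, neg_eq_zero, natCast_zsmul]

/-- the dictionary of `J₁(M)`, hypothesis-free for `5 ≤ M` -/
theorem phiDict1 (hM : 5 ≤ M) : PhiDict1 M Fermat.Agent.S48.B.Inst.Top.iotaC :=
  Fermat.Agent.S48.B.Dict.Descent.RootTwist.phiDict1_of_deg_repLe M _
    (Fermat.Agent.S48.B.B1.Main.deg1 M) (Fermat.Agent.S48.B.B1.Main.repLe M)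
    (Fermat.Agent.S48.B.Dict.PsiDictOf.psiDict1_of_localGlobal M hM
      (Fermat.Agent.S48.B.B1.Main.deg1 M) (Fermat.Agent.S48.B.B1.Main.repLe M)
      (Fermat.Agent.S48.B.Dict.Places.Final.localGlobal1 M (Fermat.Agent.S48.B.B1.Main.deg1 M) _))

/-- the `n`-torsion of `J₁(M)(ℚ̄)` is finite -/
theorem finite_torsion1 (hM : 5 ≤ M) {n : ℕ} (hn : n ≠ 0) : {v : J1 M | n • v = 0}.Finite :=
  Fermat.Agent.S48.B.Inst.Dict.finite_torsion (phiDict1 hM) hn

/-- **`J₁(M)^tw[k]` is finite** (`k ≠ 0`). -/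
theorem finite_T (hM : 5 ≤ M) (hk : k ≠ 0) : Finite ↥(T M m k) := by
  have hfin := finite_torsion1 (M := M) hM (n := k.natAbs) (Int.natAbs_ne_zero.mpr hk)
  have hset : ((T M m k : Submodule ℤ (J1tw M m)) : Set (J1tw M m))
      = {y : J1tw M m | k.natAbs • y = 0} := by
    ext x
    exact mem_T_iff_natAbs
  have : Finite ((T M m k : Submodule ℤ (J1tw M m)) : Set (J1tw M m)) := by
    rw [hset]
    exact hfin.to_subtype
  exact this

/-- the torsion subgroup is Galois-stable -/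
theorem smul_mem_T (σ : GQ) {x : J1tw M m} (hx : x ∈ T M m k) : σ • x ∈ T M m k := by
  rw [mem_T_iff] at hx ⊢
  have h : σ • (k • x) = k • (σ • x) := map_zsmul (DistribSMul.toAddMonoidHom (J1tw M m) σ) k x
  rw [← h, hx]
  exact smul_zero (A := J1tw M m) σ

/-- the (twisted) Galois action on `T`, as additive maps -/
def galAct (σ : GQ) : ↥(T M m k) →+ ↥(T M m k) where
  toFun x := ⟨σ • (x : J1tw M m), smul_mem_T σ x.2⟩
  map_zero' := Subtype.ext (smul_zero σ)
  map_add' x y := Subtype.ext (smul_add σ (x : J1tw M m) (y : J1tw M m))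

@[simp] theorem coe_galAct (σ : GQ) (x : ↥(T M m k)) :
    ((galAct σ x : ↥(T M m k)) : J1tw M m) = σ • (x : J1tw M m) := rfl

theorem galAct_one (x : ↥(T M m k)) : galAct (1 : GQ) x = x := Subtype.ext (one_smul _ _)

theorem galAct_mul (σ τ : GQ) (x : ↥(T M m k)) : galAct (σ * τ) x = galAct σ (galAct τ x) :=
  Subtype.ext (mul_smul σ τ (x : J1tw M m))

theorem galAct_surjective (σ : GQ) : Function.Surjective (galAct (M := M) (m := m) (k := k) σ) := by
  intro x
  refine ⟨galAct σ⁻¹ x, ?_⟩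
  rw [← galAct_mul, mul_inv_cancel, galAct_one]

/-- an element with `cyc M σ = 1` acts on `T` as on `J₁(M)` -/
theorem ofTw_galAct_of_cyc_eq_one {σ : GQ} (hσ : cyc M σ = 1) (x : ↥(T M m k)) :
    ofTw M m ((galAct σ x : ↥(T M m k)) : J1tw M m) = σ • ofTw M m (x : J1tw M m) :=
  ofTw_smul_of_cyc_eq_one M m hσ _

/-- the cyclotomic character modulo `M` is trivial on inertia at `p ∤ M` -/
theorem cyc_inertia {p : ℕ} (hp : p.Prime) (hpM : ¬ p ∣ M) (A : ValuationSubring Kb)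
    (hA : A.LiesOverPrime p) {σ : GQ} (hσ : σ ∈ A.inertiaSubgroupIn ℚ) : cyc M σ = 1 :=
  Fermat.Agent.S48.B.Chain.GalChar.chi_inertia M hp hpM A hA σ hσ

/-- an inertia element at a prime `p ∤ M` acts on `T` as on `J₁(M)` -/
theorem ofTw_galAct_inertia {p : ℕ} (hp : p.Prime) (hpM : ¬ p ∣ M) (A : ValuationSubring Kb)
    (hA : A.LiesOverPrime p) {σ : GQ} (hσ : σ ∈ A.inertiaSubgroupIn ℚ) (x : ↥(T M m k)) :
    ofTw M m ((galAct σ x : ↥(T M m k)) : J1tw M m) = σ • ofTw M m (x : J1tw M m) :=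
  ofTw_galAct_of_cyc_eq_one (cyc_inertia hp hpM A hA hσ) x

/-- open stabilisers on `J₁(M)(ℚ̄)` -/
theorem smooth1 : SmoothSeam1 M :=
  Fermat.Agent.S48.B.Arith.Smooth1.smoothSeam1_of_deg1 M (Fermat.Agent.S48.B.B1.Main.deg1 M)

/-- **open stabilisers on the twisted module**: every point of `J1tw M m` is fixed by
`Gal(ℚ̄ / E)` for a finite `E / ℚ` -/
theorem exists_finite_fixing (x : J1tw M m) :
    ∃ E : IntermediateField ℚ Kb, FiniteDimensional ℚ E ∧
      ∀ σ : GQ, (∀ a ∈ E, σ a = a) → σ • x = x := by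
  obtain ⟨E₁, hE₁, h₁⟩ := smooth1 (M := M) (ofTw M m x)
  obtain ⟨E₂, hE₂, h₂⟩ := Fermat.Agent.S48.B.Chain.GalChar.chi_finiteLevel M
  haveI := hE₁
  haveI := hE₂
  refine ⟨E₁ ⊔ E₂, inferInstance, fun σ hσ => ?_⟩
  have hc : cyc M σ = 1 := h₂ σ fun a ha => hσ a ((le_sup_right : E₂ ≤ E₁ ⊔ E₂) ha)
  apply (ofTw M m).injective
  rw [ofTw_smul_of_cyc_eq_one M m hc]
  exact h₁ σ fun a ha => hσ a ((le_sup_left : E₁ ≤ E₁ ⊔ E₂) ha)

/-- **Open stabilisers**: a finite extension `E / ℚ` such that `Gal(ℚ̄ / E)` fixes `T` pointwise. -/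
theorem exists_finite_fixing_T (hM : 5 ≤ M) (hk : k ≠ 0) :
    ∃ E : IntermediateField ℚ Kb, FiniteDimensional ℚ E ∧
      ∀ σ : GQ, (∀ a ∈ E, σ a = a) → ∀ x : ↥(T M m k), galAct σ x = x := by
  classical
  haveI := finite_T (M := M) (m := m) hM hk
  haveI : Fintype ↥(T M m k) := Fintype.ofFinite _
  choose Ef hEf hf using fun x : ↥(T M m k) => exists_finite_fixing (x : J1tw M m)
  refine ⟨⨆ x ∈ (Finset.univ : Finset ↥(T M m k)), Ef x,
    IntermediateField.finiteDimensional_iSup_of_finset' fun x _ => hEf x, fun σ hσ x => ?_⟩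
  apply Subtype.ext
  refine hf x σ fun a ha => hσ a ?_
  have hle : Ef x ≤ ⨆ x ∈ (Finset.univ : Finset ↥(T M m k)), Ef x :=
    le_iSup_of_le x (le_iSup (fun _ => Ef x) (Finset.mem_univ x))
  exact hle ha

end Fermat.Agent.S43.Flat1.TorsionX1
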