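/-
PROJECT R (S43), block FLAT1, file `SepX1` (helper8): twin of
main's `S19/SepX0` on the twisted module.
-/
import Fermat.Agent.S19.EquivSep
import Fermat.Agent.S43.Flat1.TorsionX1
import Fermat.Agent.Lib.FrobeniusExists

set_option autoImplicit false

noncomputable section

namespace Fermat.Agent.S43.Flat1.SepX1

open ModularCurve Fermat.Agent.S43.Flat1.TorsionX1 Fermat.Agent.S43.Tw.Defs

local notation "Qbar" => AlgebraicClosure ℚ
local notation "GQ" => (AlgebraicClosure ℚ ≃ₐ[ℚ] AlgebraicClosure ℚ)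

variable {M : ℕ} [NeZero M] {m : ℕ} {k : ℤ}

/-- the `G_ℚ`-action on `J₁(M)^tw[k]` (a `def`, not an instance) -/
@[instance_reducible]
def mulAction : MulAction GQ ↥(T M m k) where
  smul σ x := galAct σ x
  one_smul := galAct_one
  mul_smul := galAct_mul

attribute [local instance] mulAction

theorem smul_def (σ : GQ) (x : ↥(T M m k)) : σ • x = galAct σ x := rfl

/-- every point of `J₁(M)^tw[k]` has an open stabiliser -/
theorem openStab (x : ↥(T M m k)) : Fermat.Agent.S19.EquivSep.OpenStab ℚ Qbar x := by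
  obtain ⟨E, hE, hfix⟩ := exists_finite_fixing (x : J1tw M m)
  exact ⟨E, hE, fun σ hσ => Subtype.ext (hfix σ hσ)⟩

/-- **(A0)** the `G_ℚ`-equivariant functions `J₁(M)^tw[k] → ℚ̄` separate points -/
theorem exists_equivariant_separating {x y : ↥(T M m k)} (h : x ≠ y) :
    ∃ φ : ↥(T M m k) → Qbar, (∀ (σ : GQ) (s : ↥(T M m k)), φ (galAct σ s) = σ (φ s)) ∧ φ x ≠ φ y :=
  haveI : IsGalois ℚ Qbar := IsAlgClosure.isGalois ℚ Qbar
  Fermat.Agent.S19.EquivSep.exists_equivariant_separating (k := ℚ) (K := Qbar) openStab h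

end Fermat.Agent.S43.Flat1.SepX1
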