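/-
PROJECT R (S43), block FLAT1, file `FrameArithX1` (helper8): the ARITHMETIC FRAME of the back end of
S19 at the twisted module `T = J₁(M)^tw[k]`, over `W := SmallDVR.W A`:

  `frameW1 hA hσ : BackEnd.Frame (fun τ => galAct τ) ℓ ℓ σ (FrameWX0.sigmaW hσ) I_A`.

Twin of main's `S19/FrameArithX0.frameX0` + `S19/FrameWX0.frameW`.  The fields of `BackEnd.Frame` which
do not mention `T` are COPIED from main's `FrameWX0.frameW` (at `N = 1`, `m = 0`); the four fields
which do (`ρ_add`, `ρ_mul`, `ρ_one`, `sepA0`) are `TorsionX1` and `SepX1`.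
-/
import Fermat.Agent.S19.FrameWX0
import Fermat.Agent.S43.Flat1.SepX1

set_option autoImplicit false

noncomputable section

namespace Fermat.Agent.S43.Flat1.FrameArithX1

open ModularCurve Fermat.Agent.S43.Flat1.TorsionX1 Fermat.Agent.S19.BackEnd
open GaloisRep Fermat.Agent.S18.C.SmallDVR

local notation "Qbar" => AlgebraicClosure ℚ
local notation "GQ" => (AlgebraicClosure ℚ ≃ₐ[ℚ] AlgebraicClosure ℚ)

variable {A : ValuationSubring Qbar} {ℓ : ℕ} [hℓ : Fact ℓ.Prime]

/-- **the arithmetic frame at the twisted module `J₁(M)^tw[k]` over the small DVR `W A`** -/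
theorem frameW1 {M : ℕ} [NeZero M] {m : ℕ} {k : ℤ} (hA : A.LiesOverPrime ℓ) {σ : GQ}
    (hσ : A.IsFrobeniusAt σ ℓ) :
    letI := Fermat.Agent.S19.FrameWX0.algebraRW (A := A) hA
    haveI := Fermat.Agent.S19.FrameWX0.isScalarTower (A := A) hA
    Frame (R := ↥(ratLocalizedAt ℓ)) (W := ↥(W A)) (K := Qbar) (Γ := GQ) (T := ↥(T M m k))
      (fun τ => galAct τ) ((ℓ : ℕ) : ↥(ratLocalizedAt ℓ)) ℓ σ
      (Fermat.Agent.S19.FrameWX0.sigmaW hσ) (A.inertiaSubgroupIn ℚ) := by
  letI := Fermat.Agent.S19.FrameWX0.algebraRW (A := A) hA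
  haveI := Fermat.Agent.S19.FrameWX0.isScalarTower (A := A) hA
  have F := Fermat.Agent.S19.FrameWX0.frameW (N := 1) (m := 0) hA hσ
  exact
    { ρ_add := fun τ s t => map_add (galAct τ) s t
      ρ_mul := fun τ τ' t => galAct_mul τ τ' t
      ρ_one := fun t => galAct_one t
      injR := F.injR
      injW := F.injW
      ℓ_ne := F.ℓ_ne
      fixR := F.fixR
      fixed_frac := F.fixed_frac
      fixed_W := F.fixed_W
      inertia := F.inertia
      σW_spec := F.σW_spec
      σ_frob := F.σ_frob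
      frob_fixed := F.frob_fixed
      unit_mod := F.unit_mod
      sepA0 := fun s t hst => SepX1.exists_equivariant_separating hst }

end Fermat.Agent.S43.Flat1.FrameArithX1
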