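/-
PROJECT R (S43), block FLAT1, file `FinalX1` (helper8): the function-level Hopf order over `ℤ_(ℓ)` on
the twisted module `J₁(M)^tw[ℓ^k]` from ONE `W A`-order.  Twin of main's
`S19/Final.{exists_isHopfOrderFn_of_wOrder, exists_isHopfOrderFn_of_forall_wOrder}`
(`BackEnd.descend`, `BackEnd.isHopfOrderFn_descend` and `Lib.FrobeniusExists` are generic, imported).
-/
import Fermat.Agent.S19.Final
import Fermat.Agent.S43.Flat1.FrameArithX1

set_option autoImplicit false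
set_option linter.style.haveILetI false

noncomputable section

namespace Fermat.Agent.S43.Flat1.FinalX1

open ModularCurve Fermat.Agent.S43.Flat1.TorsionX1 Fermat.Agent.S19.BackEnd
open GaloisRep Fermat.Agent.S18.C.SmallDVR Fermat.Agent.S19.HopfOrder

local notation "Qbar" => AlgebraicClosure ℚ
local notation "GQ" => (AlgebraicClosure ℚ ≃ₐ[ℚ] AlgebraicClosure ℚ)

variable {M : ℕ} [NeZero M] {m : ℕ} {ℓ : ℕ} [Fact ℓ.Prime] {k : ℕ}

/-- the function-level Hopf order over `ℤ_(ℓ)` from ONE `W A`-order at `J₁(M)^tw[ℓ^k]` -/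
theorem exists_isHopfOrderFn_of_wOrder1 (hM : 5 ≤ M) {A : ValuationSubring Qbar}
    (hA : A.LiesOverPrime ℓ) {σ : GQ} (hσ : A.IsFrobeniusAt σ ℓ)
    (HW : Subalgebra ↥(W A) (↥(T M m ((ℓ : ℤ) ^ k)) → Qbar))
    (O : WOrder (fun τ => ⇑(galAct (M := M) (m := m) (k := (ℓ : ℤ) ^ k) τ)) σ
      (A.inertiaSubgroupIn ℚ) HW) :
    ∃ H : Subalgebra (Zl ℓ) (↥(T M m ((ℓ : ℤ) ^ k)) → Qbar),
      IsHopfOrderFn (fun τ => ⇑(galAct (M := M) (m := m) (k := (ℓ : ℤ) ^ k) τ)) H := by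
  letI := Fermat.Agent.S19.FrameWX0.algebraRW (A := A) hA
  haveI := Fermat.Agent.S19.FrameWX0.isScalarTower (A := A) hA
  haveI : Finite ↥(T M m ((ℓ : ℤ) ^ k)) :=
    finite_T (M := M) (m := m) hM (Fermat.Agent.S19.Final.pow_ne_zero_int ℓ k)
  have F := FrameArithX1.frameW1 (M := M) (m := m) (k := (ℓ : ℤ) ^ k) hA hσ
  exact ⟨descend F HW, isHopfOrderFn_descend F O⟩

/-- the same with `(A, σ)` supplied -/
theorem exists_isHopfOrderFn_of_forall_wOrder1 (hM : 5 ≤ M)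
    (h : ∀ (A : ValuationSubring Qbar) (_ : A.LiesOverPrime ℓ) (σ : GQ) (_ : A.IsFrobeniusAt σ ℓ),
      ∃ HW : Subalgebra ↥(W A) (↥(T M m ((ℓ : ℤ) ^ k)) → Qbar),
        WOrder (fun τ => ⇑(galAct (M := M) (m := m) (k := (ℓ : ℤ) ^ k) τ)) σ
          (A.inertiaSubgroupIn ℚ) HW) :
    ∃ H : Subalgebra (Zl ℓ) (↥(T M m ((ℓ : ℤ) ^ k)) → Qbar),
      IsHopfOrderFn (fun τ => ⇑(galAct (M := M) (m := m) (k := (ℓ : ℤ) ^ k) τ)) H := by
  obtain ⟨A, σ, hA, hσ⟩ :=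
    Fermat.Agent.Lib.FrobeniusExists.exists_valuationSubring_isFrobeniusAt ℓ (Fact.out : ℓ.Prime)
  obtain ⟨HW, O⟩ := h A hA σ hσ
  exact exists_isHopfOrderFn_of_wOrder1 hM hA hσ HW O

end Fermat.Agent.S43.Flat1.FinalX1
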