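/-
PROJECT R (S43), block FLAT1, file `FrobFrameX1` (helper8):
`FrobClosure.FrobFrame` at the twisted module `J₁(M)^tw[k]`, twin of main's `S19/FrobFrameX0`.
-/
import Fermat.Agent.S19.FrobClosure
import Fermat.Agent.S19.OLX0
import Fermat.Agent.S19.FrameWX0
import Fermat.Agent.S19.FrobFrameX0
import Fermat.Agent.S43.Flat1.TorsionX1

set_option autoImplicit false
set_option linter.style.haveILetI false
set_option linter.unusedSectionVars false

noncomputable section

namespace Fermat.Agent.S43.Flat1.FrobFrameX1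

open ModularCurve Fermat.Agent.S43.Flat1.TorsionX1 Fermat.Agent.S19.BackEnd
open Fermat.Agent.S18.C.SmallDVR Fermat.Agent.S19.IntegralW Fermat.Agent.S19.OLX0
open Fermat.Agent.S19.FrobClosure

local notation "Qbar" => AlgebraicClosure ℚ
local notation "GQ" => (AlgebraicClosure ℚ ≃ₐ[ℚ] AlgebraicClosure ℚ)

variable (A : ValuationSubring Qbar) (M : ℕ) [NeZero M] (m : ℕ) (k : ℤ)

/-- the (twisted) Galois action on `T = J₁(M)^tw[k]` as a bare function (the `ρ` of the back end) -/
abbrev rhoX1 : GQ → ↥(T M m k) → ↥(T M m k) := fun τ => ⇑(galAct (M := M) (m := m) (k := k) τ)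

/-- the field `K_T` -/
abbrev KTX1 : IntermediateField (K0 A) Qbar := KT A (rhoX1 M m k)

/-- the finite local `W A`-algebra `OL = A ∩ K_T` -/
abbrev OLX1 : Subalgebra (W A) Qbar := OL A (KTX1 A M m k)

variable {A M m k}

theorem rhoX1_mul (τ τ' : GQ) (t : ↥(T M m k)) :
    rhoX1 M m k (τ * τ') t = rhoX1 M m k τ (rhoX1 M m k τ' t) :=
  galAct_mul τ τ' t

theorem rhoX1_one (t : ↥(T M m k)) : rhoX1 M m k 1 t = t := galAct_one t

theorem rhoX1_add (τ : GQ) (s t : ↥(T M m k)) :
    rhoX1 M m k τ (s + t) = rhoX1 M m k τ s + rhoX1 M m k τ t := map_add (galAct τ) s t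

variable {ℓ : ℕ} [Fact ℓ.Prime]

/-- `OL` is a finite `W A`-module -/
theorem finite_OLX1 (hM : 5 ≤ M) (hk : k ≠ 0) (hA : A.LiesOverPrime ℓ) :
    Module.Finite (W A) (OLX1 A M m k) :=
  haveI := finite_T (M := M) (m := m) hM hk
  finite_OLT rhoX1_mul rhoX1_one hA

/-- **`FrobClosure.FrobFrame` at the twisted module** -/
theorem frobFrameX1 (hM : 5 ≤ M) (hk : k ≠ 0) (hA : A.LiesOverPrime ℓ) {σ : GQ}
    (hσ : A.IsFrobeniusAt σ ℓ) :
    haveI := finite_T (M := M) (m := m) hM hk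
    haveI := Fermat.Agent.S19.FrameWX0.isNoetherianRing_W hA
    haveI := finite_OLX1 (M := M) (m := m) hM hk hA
    FrobFrame (W := ↥(W A)) (OLX1 A M m k) (rhoX1 M m k) σ (A.inertiaSubgroupIn ℚ) := by
  haveI := finite_T (M := M) (m := m) hM hk
  haveI := Fermat.Agent.S19.FrameWX0.isNoetherianRing_W hA
  haveI := finite_OLX1 (M := M) (m := m) hM hk hA
  exact
    { ρ_add := rhoX1_add
      ρ_mul := rhoX1_mul
      fixW := fun τ hτ w => Fermat.Agent.S19.FrobFrameX0.fixW hτ w
      I_normal := fun τ hτ => conj_mem_inertia hσ.mem_decompositionSubgroup hτ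
      σ_OL := fun x hx => map_mem_OL rhoX1_mul rhoX1_one hσ.mem_decompositionSubgroup hx }

end Fermat.Agent.S43.Flat1.FrobFrameX1
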