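/-
PROJECT R (S43), block FLAT1, file `CloseX1` (helper8): from the
chart interface `ChartGlue.ChartAPI` at the twisted module `J₁(M)^tw[ℓ^k]` to a `BackEnd.WOrder` and to the
function-level Hopf order over `ℤ_(ℓ)` (the input of `Flat1/Main`).  Twin of main's `S19/CloseX0`.
-/
import Fermat.Agent.S19.ChartGlue
import Fermat.Agent.S43.Flat1.FrobFrameX1
import Fermat.Agent.S43.Flat1.FinalX1

set_option autoImplicit false
set_option linter.style.haveILetI false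
set_option linter.unusedSectionVars false

noncomputable section

namespace Fermat.Agent.S43.Flat1.CloseX1

open ModularCurve Fermat.Agent.S43.Flat1.TorsionX1 Fermat.Agent.S19.BackEnd
open Fermat.Agent.S18.C.SmallDVR Fermat.Agent.S19.IntegralW Fermat.Agent.S19.OLX0
open Fermat.Agent.S19.FrobClosure Fermat.Agent.S43.Flat1.FrobFrameX1 Fermat.Agent.S19.ChartGlue
open Fermat.Agent.S19.HopfOrder

local notation "Qbar" => AlgebraicClosure ℚ
local notation "GQ" => (AlgebraicClosure ℚ ≃ₐ[ℚ] AlgebraicClosure ℚ)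

variable {M : ℕ} [NeZero M] {m : ℕ} {ℓ : ℕ} [Fact ℓ.Prime] {k : ℕ}

/-- the chart interface at the twisted module with the ring-theoretic slots filled in; `J`, `act`,
`J1`, `ι`, `coord`, `Ψ`, `Aalg`, `small` are free -/
def ChartAPIAt1 (A : ValuationSubring Qbar) (hA : A.LiesOverPrime ℓ) (M : ℕ) [NeZero M]
    (hM : 5 ≤ M) (m : ℕ) (k : ℕ)
    {J : Type*} [AddCommGroup J] (Aalg : Subalgebra ↥(W A) Qbar) (small : Qbar → Prop)
    (act : GQ → J → J) (J1 : AddSubgroup J) (ι : ↥(T M m ((ℓ : ℤ) ^ k)) →+ J) {g : ℕ}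
    (coord : J → Fin g → Qbar) (Ψ : ℕ → Fin g → MvPolynomial (Fin g ⊕ Fin g) ↥(W A)) : Prop :=
  haveI := finite_T (M := M) (m := m) hM (Fermat.Agent.S19.Final.pow_ne_zero_int ℓ k)
  haveI := Fermat.Agent.S19.FrameWX0.isNoetherianRing_W hA
  haveI := finite_OLX1 (M := M) (m := m) hM (Fermat.Agent.S19.Final.pow_ne_zero_int ℓ k) hA
  ChartAPI (W := ↥(W A)) (K := Qbar) (Γ := GQ) (OLX1 A M m ((ℓ : ℤ) ^ k)) Aalg small act J1 ι
    (rhoX1 M m ((ℓ : ℤ) ^ k)) (A.inertiaSubgroupIn ℚ) coord Ψ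

variable {A : ValuationSubring Qbar} {J : Type*} [AddCommGroup J]
  {Aalg : Subalgebra ↥(W A) Qbar} {small : Qbar → Prop} {act : GQ → J → J} {J1 : AddSubgroup J}
  {ι : ↥(T M m ((ℓ : ℤ) ^ k)) →+ J} {g : ℕ} {coord : J → Fin g → Qbar}
  {Ψ : ℕ → Fin g → MvPolynomial (Fin g ⊕ Fin g) ↥(W A)}

/-- a `W A`-order at the twisted module from the chart interface -/
theorem exists_wOrder_of_chartAPI1 (hM : 5 ≤ M) (hA : A.LiesOverPrime ℓ) {σ : GQ}
    (hσ : A.IsFrobeniusAt σ ℓ)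
    (C : ChartAPIAt1 A hA M hM m k Aalg small act J1 ι coord Ψ) :
    ∃ HW : Subalgebra ↥(W A) (↥(T M m ((ℓ : ℤ) ^ k)) → Qbar),
      WOrder (fun τ => ⇑(galAct (M := M) (m := m) (k := (ℓ : ℤ) ^ k) τ)) σ
        (A.inertiaSubgroupIn ℚ) HW := by
  haveI := finite_T (M := M) (m := m) hM (Fermat.Agent.S19.Final.pow_ne_zero_int ℓ k)
  haveI := Fermat.Agent.S19.FrameWX0.isNoetherianRing_W hA
  haveI := finite_OLX1 (M := M) (m := m) hM (Fermat.Agent.S19.Final.pow_ne_zero_int ℓ k) hA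
  exact ⟨_, ChartAPI.wOrder (OLX1 A M m ((ℓ : ℤ) ^ k)) C
    (frobFrameX1 (M := M) (m := m) hM (Fermat.Agent.S19.Final.pow_ne_zero_int ℓ k) hA hσ)⟩

/-- the function-level Hopf order over `ℤ_(ℓ)` on `J₁(M)^tw[ℓ^k]` from chart interfaces at all `A` -/
theorem exists_isHopfOrderFn_of_chartAPI1 (hM : 5 ≤ M)
    (h : ∀ (A : ValuationSubring Qbar) (hA : A.LiesOverPrime ℓ),
      ∃ (J : Type) (_ : AddCommGroup J) (Aalg : Subalgebra ↥(W A) Qbar) (small : Qbar → Prop)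
        (act : GQ → J → J) (J1 : AddSubgroup J) (ι : ↥(T M m ((ℓ : ℤ) ^ k)) →+ J) (g : ℕ)
        (coord : J → Fin g → Qbar) (Ψ : ℕ → Fin g → MvPolynomial (Fin g ⊕ Fin g) ↥(W A)),
        ChartAPIAt1 A hA M hM m k Aalg small act J1 ι coord Ψ) :
    ∃ H : Subalgebra (Zl ℓ) (↥(T M m ((ℓ : ℤ) ^ k)) → Qbar),
      IsHopfOrderFn (fun τ => ⇑(galAct (M := M) (m := m) (k := (ℓ : ℤ) ^ k) τ)) H :=
  Fermat.Agent.S43.Flat1.FinalX1.exists_isHopfOrderFn_of_forall_wOrder1 hM fun A hA σ hσ => by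
    obtain ⟨J, _, Aalg, small, act, J1, ι, g, coord, Ψ, C⟩ := h A hA
    exact exists_wOrder_of_chartAPI1 hM hA hσ C

end Fermat.Agent.S43.Flat1.CloseX1
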