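import Mathlib
import Fermat.Agent.S19.FixesDatumAut
import Fermat.Agent.S43.Flat1.ChartX1

/-!
# PROJECT R (S43), block FLAT1, file `FixesDatumX1` (helper8): at `X₁(M)` the inertia group fixes the
interpolation datum; the addition law over `W A` (twin of main's `S19/FixesDatumX0`)

For `A : ValuationSubring ℚ̄` over `ℓ ∤ M`, `R = redDatumX1 M A`, and an interpolation datum `d` whose
parameters are `T_i = j - c_i`, `v_j = j - c'_j` with inertia-fixed constants (the shape produced by
`DatumExists.exists_datum` with `x := jX1`):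

* `fixesDatumX1` : every `σ` in the inertia group satisfies `TaylorRat.FixesDatum d`;
* `coord_add_X1` : the addition law in the chart coordinates of `d`, with ONE family of universal
  polynomials `Ψ n i` over `S := SmallDVR.W A`, no hypothesis left
  (`= CoordAddRat.coord_add_fixed` at `X₁(M)`).
-/

set_option autoImplicit false
set_option synthInstance.maxHeartbeats 400000
set_option linter.unusedSectionVars false
set_option linter.unusedVariables false
set_option linter.style.haveILetI false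

noncomputable section

namespace Fermat.Agent.S43.Flat1.FixesDatumX1

open AlgebraicCurve ModularCurve IntermediateField IsLocalRing
open Fermat.Agent.S18.CoreDefs Fermat.Agent.S18.CoreOrd Fermat.Agent.S18.Disc
open Fermat.Agent.S18.NonSpecial Fermat.Agent.S18.NonSpecialAdapter
open Fermat.Agent.S18.C.SmallDVR
open Fermat.Agent.S48.B.Defs.Model
open Fermat.Agent.S48.B.B1.Seams (jgen1)
open Fermat.Agent.S43.Flat1.FrameX1 Fermat.Agent.S43.Flat1.SymmX1 Fermat.Agent.S43.Flat1.ChartX1
open Fermat.Agent.S19.InterpDatum Fermat.Agent.S19.TaylorRat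

local notation "Kb" => AlgebraicClosure ℚ

attribute [local instance] Fermat.Agent.S43.LG1.C1.LevelMSurjX1.algKappa

variable {ℓ : ℕ} [Fact ℓ.Prime] (M : ℕ) [NeZero M] (A : ValuationSubring Kb)
variable (hA : A.LiesOverPrime ℓ) (hℓM : ¬ ℓ ∣ M)

/-- a parameter `j - c` with `σ c = c` is fixed by `σ` -/
theorem smul_param {σ : Kb ≃ₐ[ℚ] Kb} {c : A} (hc : σ (c : Kb) = (c : Kb))
    {T : ↥(redDatumX1 M A hA hℓM).O}
    (hT : T = jX1 M A hA hℓM - constO (redDatumX1 M A hA hℓM) c) :
    arithmeticGalois (F1 M) σ •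
        ((T : ↥(redDatumX1 M A hA hℓM).O) : ↥(F1Bar M))
      = ((T : ↥(redDatumX1 M A hA hℓM).O) : ↥(F1Bar M)) := by
  have h : T = Tc M A hA hℓM c := by
    rw [hT]
    rfl
  rw [h]
  exact smul_Tc_of_fixed M A hA hℓM hc

variable {M A hA hℓM} in
/-- **the inertia group fixes the datum** -/
theorem fixesDatumX1 {g : ℕ} (d : Datum (redDatumX1 M A hA hℓM) g)
    (hT : ∀ i, ∃ c : A, (∀ σ ∈ A.inertiaSubgroupIn ℚ, σ (c : Kb) = (c : Kb)) ∧
      d.T i = jX1 M A hA hℓM - constO (redDatumX1 M A hA hℓM) c)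
    (hv : ∀ j, ∃ c : A, (∀ σ ∈ A.inertiaSubgroupIn ℚ, σ (c : Kb) = (c : Kb)) ∧
      d.v j = jX1 M A hA hℓM - constO (redDatumX1 M A hA hℓM) c)
    {σ : Kb ≃ₐ[ℚ] Kb} (hσ : σ ∈ A.inertiaSubgroupIn ℚ) :
    FixesDatum d
      ((SemilinearAut.baseAut (arithmeticGalois (F1 M) σ) : Kb ≃+* Kb) :
        Kb →+* Kb)
      ((SemilinearAut.toRingAut (arithmeticGalois (F1 M) σ) :
        ↥(F1Bar M) ≃+* ↥(F1Bar M)) :
        ↥(F1Bar M) →+* ↥(F1Bar M)) := by
  haveI := hasPrincipalDivisors_L M
  refine Fermat.Agent.S19.FixesDatumAut.fixesDatum_of_inertial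
    (arithmeticGalois (F1 M) σ)
    (fun P => rX1_smul_inertia M A hA hℓM hσ P) d (fun i => ?_) (fun j => ?_)
  · obtain ⟨c, hc, hTi⟩ := hT i
    exact smul_param M A hA hℓM (hc σ hσ) hTi
  · obtain ⟨c, hc, hvj⟩ := hv j
    exact smul_param M A hA hℓM (hc σ hσ) hvj

variable {M A hA hℓM} in
/-- **The addition law at `X₁(M)` in the chart coordinates of `d`, with universal polynomials over
`W A`.**  All hypotheses of `CoordAddRat.coord_add_fixed` are discharged. -/
theorem coord_add_X1 {g : ℕ}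
    (hL : RiemannHyp Kb ↥(F1Bar M) g)
    (hk : RiemannHyp (ResidueField ↥A) ↥(F1C M (ResidueField ↥A)) g)
    (d : Datum (redDatumX1 M A hA hℓM) g)
    (hT : ∀ i, ∃ c : A, (∀ σ ∈ A.inertiaSubgroupIn ℚ, σ (c : Kb) = (c : Kb)) ∧
      d.T i = jX1 M A hA hℓM - constO (redDatumX1 M A hA hℓM) c)
    (hv : ∀ j, ∃ c : A, (∀ σ ∈ A.inertiaSubgroupIn ℚ, σ (c : Kb) = (c : Kb)) ∧
      d.v j = jX1 M A hA hℓM - constO (redDatumX1 M A hA hℓM) c) :
    haveI := hasPrincipalDivisors_L M
    ∃ Ψ : ℕ → Fin g → MvPolynomial (Fin g ⊕ Fin g) (W A),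
      ∀ z z' : Fermat.Agent.S19.Chart.J1 (rX1 M A hA hℓM),
        ∃ c : A, c ∈ IsLocalRing.maximalIdeal A ∧
          (∀ i, (Fermat.Agent.S19.ChartDatum.toOriginChart d).coord (deg_eq_one_L M)
                (riemannGe_of_riemannHyp hL le_rfl) z i ∈ Ideal.span {c} ∧
            (Fermat.Agent.S19.ChartDatum.toOriginChart d).coord (deg_eq_one_L M)
                (riemannGe_of_riemannHyp hL le_rfl) z' i ∈ Ideal.span {c} ∧
            (Fermat.Agent.S19.ChartDatum.toOriginChart d).coord (deg_eq_one_L M)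
                (riemannGe_of_riemannHyp hL le_rfl) (z + z') i ∈ Ideal.span {c}) ∧
          ∀ (n : ℕ) (i : Fin g),
            (Fermat.Agent.S19.ChartDatum.toOriginChart d).coord (deg_eq_one_L M)
                (riemannGe_of_riemannHyp hL le_rfl) (z + z') i -
              MvPolynomial.aeval
                (Sum.elim
                  ((Fermat.Agent.S19.ChartDatum.toOriginChart d).coord (deg_eq_one_L M)
                    (riemannGe_of_riemannHyp hL le_rfl) z)
                  ((Fermat.Agent.S19.ChartDatum.toOriginChart d).coord (deg_eq_one_L M)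
                    (riemannGe_of_riemannHyp hL le_rfl) z')) (Ψ n i) ∈ Ideal.span {c} ^ n := by
  haveI := hasPrincipalDivisors_L M
  haveI := hasPrincipalDivisors_k M A hA hℓM
  refine Fermat.Agent.S19.FixesDatumAut.coord_add_of_inertial (S := W A)
    (IsLocalRing.residue_surjective) (fun W _ => exists_red_independent M A hA hℓM W) hL hk d
    (toA_injective A)
    (fun σ : ↥(A.inertiaSubgroupIn ℚ) =>
      arithmeticGalois (F1 M) (σ : Kb ≃ₐ[ℚ] Kb))
    (fun σ P => rX1_smul_inertia M A hA hℓM σ.2 P) (fun σ i => ?_) (fun σ j => ?_)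
    (fun σ w => ?_) (fun x hx => ?_) (deg_eq_one_L M) (riemannGe_of_riemannHyp hL le_rfl)
  · obtain ⟨c, hc, hTi⟩ := hT i
    exact smul_param M A hA hℓM (hc σ σ.2) hTi
  · obtain ⟨c, hc, hvj⟩ := hv j
    exact smul_param M A hA hℓM (hc σ σ.2) hvj
  · rw [baseAut_arithmeticGalois_apply]
    exact coe_fixed A (w : K0 A) σ.2
  · have hK0 : ((x : A) : Kb) ∈ K0 A := by
      rw [mem_K0_iff]
      intro σ hσ
      have := hx ⟨σ, hσ⟩
      rwa [baseAut_arithmeticGalois_apply] at this
    exact ⟨⟨⟨(x : Kb), hK0⟩, x.2⟩, Subtype.ext rfl⟩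

end Fermat.Agent.S43.Flat1.FixesDatumX1
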