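import Mathlib
import Fermat.Agent.S19.CoordK
import Fermat.Agent.S43.Flat1.FixesDatumX1
import Fermat.Agent.S19.DatumExists
import Fermat.Agent.S43.Flat1.BaseX1
import Fermat.Agent.S19.IntegralWV
import Fermat.Agent.S43.Flat1.CloseX1

/-!
# PROJECT R (S43), block FLAT1, file `ApiX1` (helper8): `ChartGlue.ChartAPI` AT THE TWISTED MODULE

Twin of main's `S19/ApiX0` (helper16).  The carrier is `J := J1 M` with the TWISTED action
`act τ x = twOp M m τ (τ • x)`; `ι` is the inclusion of `T M m (ℓ^k) ⊆ J1tw M m` followed by the identity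
`ofTw`.  The chart interface only looks at `act τ` for `τ` in the inertia group at `A` (`ℓ ∤ M`), where the
twist is trivial (`cyc M τ = 1`): every geometric field is the one of `X₁(M)` with the untwisted action
(`FrameX1`, `ChartX1`, `BaseX1`, `FixesDatumX1`).  The only field which sees all of `G_ℚ` is `ι_ρ`, and it
holds by definition of the twisted action.
-/

set_option autoImplicit false
set_option synthInstance.maxHeartbeats 400000
set_option linter.unusedSectionVars false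
set_option linter.unusedVariables false
set_option linter.style.haveILetI false

noncomputable section

namespace Fermat.Agent.S43.Flat1.ApiX1

open AlgebraicCurve ModularCurve IntermediateField IsLocalRing
open Fermat.Agent.S18.CoreDefs Fermat.Agent.S18.CoreOrd Fermat.Agent.S18.Disc
open Fermat.Agent.S18.NonSpecial Fermat.Agent.S18.NonSpecialAdapter
open Fermat.Agent.S18.C.SmallDVR
open Fermat.Agent.S43.Flat1.FrameX1 Fermat.Agent.S43.Flat1.SymmX1 Fermat.Agent.S43.Flat1.ChartX1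
open Fermat.Agent.S19.InterpDatum Fermat.Agent.S19.TaylorRat
open Fermat.Agent.S43.Flat1.TorsionX1 Fermat.Agent.S43.Flat1.FrobFrameX1 Fermat.Agent.S19.ChartGlue
open Fermat.Agent.S19.IntegralW
open Fermat.Agent.S48.B.Defs.Model Fermat.Agent.S43.Tw.Defs
open Fermat.Agent.S19

local notation "Qbar" => AlgebraicClosure ℚ
local notation "GQ" => (AlgebraicClosure ℚ ≃ₐ[ℚ] AlgebraicClosure ℚ)

attribute [local instance] Fermat.Agent.S43.LG1.C1.LevelMSurjX1.algKappa

variable {ℓ : ℕ} [Fact ℓ.Prime] {M : ℕ} [NeZero M]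

/-- the twisted action, written on the carrier `J1 M` -/
def actTw (M : ℕ) [NeZero M] (m : ℕ) (τ : GQ) (x : J1 M) : J1 M := twOp M m τ (τ • x)

theorem actTw_add (m : ℕ) (τ : GQ) (x y : J1 M) :
    actTw M m τ (x + y) = actTw M m τ x + actTw M m τ y := by
  unfold actTw
  rw [smul_add, map_add]

/-- on the inertia group at `A` over `ℓ ∤ M` the twisted action is the untwisted one -/
theorem actTw_inertia (m : ℕ) (hℓM : ¬ ℓ ∣ M) {A : ValuationSubring Qbar} (hA : A.LiesOverPrime ℓ)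
    {τ : GQ} (hτ : τ ∈ A.inertiaSubgroupIn ℚ) (x : J1 M) : actTw M m τ x = τ • x := by
  unfold actTw
  rw [twOp_apply, TorsionX1.cyc_inertia (Fact.out : ℓ.Prime) hℓM A hA hτ, one_pow, diamond1Bar_one]

/-- the inclusion of the torsion of the twisted module into the carrier `J1 M` -/
def iotaTw (M : ℕ) [NeZero M] (m : ℕ) (k : ℤ) : ↥(T M m k) →+ J1 M :=
  (ofTw M m).toAddMonoidHom.comp (T M m k).subtype.toAddMonoidHom

set_option maxHeartbeats 2000000 in
/-- the chart interface at `X₁(M)` -/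
theorem exists_chartAPIAt1 (hM : 5 ≤ M) (m : ℕ) (hℓM : ¬ ℓ ∣ M) (k : ℕ)
    (A : ValuationSubring Qbar) (hA : A.LiesOverPrime ℓ) :
    ∃ (J : Type) (_ : AddCommGroup J) (Aalg : Subalgebra ↥(W A) Qbar) (small : Qbar → Prop)
      (act : GQ → J → J) (J1 : AddSubgroup J) (ι : ↥(T M m ((ℓ : ℤ) ^ k)) →+ J) (g : ℕ)
      (coord : J → Fin g → Qbar) (Ψ : ℕ → Fin g → MvPolynomial (Fin g ⊕ Fin g) ↥(W A)),
      CloseX1.ChartAPIAt1 A hA M hM m k Aalg small act J1 ι coord Ψ := by
  classical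
  haveI := hasPrincipalDivisors_L M
  haveI := hasPrincipalDivisors_k M A hA hℓM
  haveI := finite_T (M := M) (m := m) hM (Fermat.Agent.S19.Final.pow_ne_zero_int ℓ k)
  haveI := Fermat.Agent.S19.FrameWX0.isNoetherianRing_W hA
  haveI := finite_OLX1 (M := M) (m := m) hM (Fermat.Agent.S19.Final.pow_ne_zero_int ℓ k) hA
  obtain ⟨g, hL, hk⟩ := exists_genus M A hA hℓM
  have hG : RigidGeneric (ResidueField ↥A) ↥(F1C M (ResidueField ↥A)) g :=
    rigidGeneric_of_riemannHyp hk le_rfl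
  -- the datum
  obtain ⟨d, -, -, hT0, hv0⟩ := DatumExists.exists_datum (redDatumX1 M A hA hℓM) (toA A).range
    (fun γ => by
      obtain ⟨w, hw⟩ := residue_comp_toA_surjective hA γ
      exact ⟨toA A w, ⟨w, rfl⟩, hw⟩)
    (jX1 M A hA hℓM) (finite_not_simple M A hA hℓM) hG ∅ Set.finite_empty
  have hfixW0 : ∀ c : A, c ∈ (toA A).range →
      ∀ σ ∈ A.inertiaSubgroupIn ℚ, σ (c : Qbar) = (c : Qbar) := by
    rintro c ⟨w, rfl⟩ σ hσ
    exact coe_fixed A (w : K0 A) hσ
  have hT : ∀ i, ∃ c : A, (∀ σ ∈ A.inertiaSubgroupIn ℚ, σ (c : Qbar) = (c : Qbar)) ∧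
      d.T i = jX1 M A hA hℓM - constO (redDatumX1 M A hA hℓM) c := fun i => by
    obtain ⟨c, hc, h⟩ := hT0 i
    exact ⟨c, hfixW0 c hc, h⟩
  have hv : ∀ j, ∃ c : A, (∀ σ ∈ A.inertiaSubgroupIn ℚ, σ (c : Qbar) = (c : Qbar)) ∧
      d.v j = jX1 M A hA hℓM - constO (redDatumX1 M A hA hℓM) c := fun j => by
    obtain ⟨c, hc, h⟩ := hv0 j
    exact ⟨c, hfixW0 c hc, h⟩
  obtain ⟨Ψ, hadd⟩ := FixesDatumX1.coord_add_X1 hL hk d hT hv
  have hdegL := deg_eq_one_L M
  have hR : RiemannGe Qbar ↥(F1Bar M) g := riemannGe_of_riemannHyp hL le_rfl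
  have hSL : ∀ w : W A, algebraMap (W A) Qbar w = ((algebraMap (W A) A w : A) : Qbar) :=
    fun w => rfl
  -- the inertial symmetries
  have hin : ∀ {τ : GQ}, τ ∈ A.inertiaSubgroupIn ℚ → ∀ P : Place Qbar ↥(F1Bar M),
      rX1 M A hA hℓM (arithmeticGalois (F1 M) τ • P) = rX1 M A hA hℓM P :=
    fun hτ P => rX1_smul_inertia M A hA hℓM hτ P
  have hTfix : ∀ {τ : GQ}, τ ∈ A.inertiaSubgroupIn ℚ → ∀ i,
      arithmeticGalois (F1 M) τ •
        (((ChartDatum.toOriginChart d).T i : ↥(redDatumX1 M A hA hℓM).O) :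
          ↥(F1Bar M)) =
        (((ChartDatum.toOriginChart d).T i : ↥(redDatumX1 M A hA hℓM).O) :
          ↥(F1Bar M)) := by
    intro τ hτ i
    obtain ⟨c, hc, hTi⟩ := hT i
    exact FixesDatumX1.smul_param M A hA hℓM (hc τ hτ) hTi
  have hinj : ∀ z z', z ∈ BaseX1.J1X1 M A hA hℓM → z' ∈ BaseX1.J1X1 M A hA hℓM →
      CoordK.coordK (ChartDatum.toOriginChart d) hdegL hR z =
        CoordK.coordK (ChartDatum.toOriginChart d) hdegL hR z' → z = z' :=
    fun z z' hz hz' h => CoordK.coordK_inj _ hdegL hR hz hz' h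
  have hmem : ∀ z i, z ∈ BaseX1.J1X1 M A hA hℓM →
      CoordK.coordK (ChartDatum.toOriginChart d) hdegL hR z i ∈ IntegralWV.Aalg A :=
    fun z i hz => CoordK.coordK_mem _ hdegL hR hz i
  have hcoordI : ∀ τ ∈ A.inertiaSubgroupIn ℚ, ∀ z ∈ BaseX1.J1X1 M A hA hℓM, ∀ i,
      CoordK.coordK (ChartDatum.toOriginChart d) hdegL hR (τ • z) i =
        τ • CoordK.coordK (ChartDatum.toOriginChart d) hdegL hR z i := by
    intro τ hτ z hz i
    rcases Nat.eq_zero_or_pos g with hg | hg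
    · subst hg
      exact i.elim0
    · have hzτ : arithmeticGalois (F1 M) τ • z ∈
          Chart.J1 (rX1 M A hA hℓM) := ChartSymm.smul_mem_J1 _ (hin hτ) hz
      have h1 := ChartSymm.coord_smul (ChartDatum.toOriginChart d) hdegL
        IsLocalRing.residue_surjective hR (ChartDatum.exists_off d hg)
        (arithmeticGalois (F1 M) τ) (hin hτ) (hTfix hτ) ⟨z, hz⟩ i
      rw [baseAut_arithmeticGalois_apply] at h1
      show CoordK.coordK (ChartDatum.toOriginChart d) hdegL hR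
        (arithmeticGalois (F1 M) τ • z) i =
          τ (CoordK.coordK (ChartDatum.toOriginChart d) hdegL hR z i)
      rw [CoordK.coordK_of_mem _ hdegL hR hzτ, CoordK.coordK_of_mem _ hdegL hR hz]
      exact h1
  have hcadd : ∀ z z', z ∈ BaseX1.J1X1 M A hA hℓM → z' ∈ BaseX1.J1X1 M A hA hℓM →
      ∃ c : Qbar, c ∈ A.nonunits ∧ ∀ (n : ℕ) (i : Fin g), ∃ a ∈ IntegralWV.Aalg A,
        CoordK.coordK (ChartDatum.toOriginChart d) hdegL hR (z + z') i -
          MvPolynomial.aeval (Sum.elim (CoordK.coordK (ChartDatum.toOriginChart d) hdegL hR z)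
            (CoordK.coordK (ChartDatum.toOriginChart d) hdegL hR z')) (Ψ n i) = c ^ n * a :=
    fun z z' hz hz' =>
      CoordK.coordK_add (ChartDatum.toOriginChart d) hdegL hR hSL Ψ hadd hz hz'
  refine ⟨J1 M, inferInstance, IntegralWV.Aalg A, fun c => c ∈ A.nonunits, actTw M m,
    BaseX1.J1X1 M A hA hℓM, iotaTw M m ((ℓ : ℤ) ^ k), g,
    CoordK.coordK (ChartDatum.toOriginChart d) hdegL hR, Ψ, ?_⟩
  unfold CloseX1.ChartAPIAt1
  refine
    { ρ_add := rhoX1_add
      ρ_mul := rhoX1_mul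
      ρ_one := rhoX1_one
      act_add := ?_
      ι_inj := ?_
      ι_ρ := ?_
      fixW := ?_
      J1_I := ?_
      coord_inj := ?_
      coord_mem := ?_
      coord_I := ?_
      AI := ?_
      base := ?_
      hOL := ?_
      small_mem := ?_
      V := ?_
      coord_add := ?_ }
  · exact fun τ x y => actTw_add m τ x y
  · exact fun x y h => Subtype.ext ((ofTw M m).injective h)
  · exact fun τ t => rfl
  · exact fun τ hτ w => Fermat.Agent.S19.FrobFrameX0.fixW hτ w
  · intro τ hτ x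
    rw [actTw_inertia m hℓM hA hτ]
    exact BaseX1.J1_inertia M A hA hℓM hτ x
  · exact hinj
  · exact hmem
  · intro τ hτ z hz i
    rw [actTw_inertia m hℓM hA hτ]
    exact hcoordI τ hτ z hz i
  · exact fun a ha hfix => IntegralWV.AI ha hfix
  · intro x
    obtain ⟨y, hy, hxy⟩ := BaseX1.base M A hA hℓM x
    exact ⟨y, fun τ hτ => by rw [actTw_inertia m hℓM hA hτ]; exact hy τ hτ, hxy⟩
  · exact fun a ha h => OLX0.mem_OL_of_fixed ha h
  · exact fun c hc => IntegralWV.small_mem hc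
  · exact fun c hc b => IntegralWV.V_Aalg _ hA c hc b
  · exact hcadd

end Fermat.Agent.S43.Flat1.ApiX1
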