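/-
PROJECT R (S43), block FLAT1, file `Main` (helper8): **THE `hord` INPUT OF main's
`S32/FlatOfTransfer.isFlatAt_of_transfer_pow` FOR THE TWISTED MODULE `J := J1tw M m`**, `p ∤ M`, `5 ≤ M`.

* `hfinJ1` : `J₁(M)^tw[p^k]` is finite for every `k`;
* `hord1`  : for every `k` a Hopf order over `ℤ_(p)` in `Map(J₁(M)^tw[p^k], ℚ̄)` for the (twisted) Galois
  action `LevelActs.torsAct (p ^ k)`.

Twin of main's `S32/OrdX0.hord_of_fn` on `CloseX1.exists_isHopfOrderFn_of_chartAPI1` and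
`ApiX1.exists_chartAPIAt1`.
-/
import Fermat.Agent.S43.Flat1.ApiX1
import Fermat.Agent.S32.BridgeFn
import Fermat.Agent.S32.LevelActs

set_option autoImplicit false

noncomputable section

namespace Fermat.Agent.S43.Flat1.Main

open ModularCurve GaloisRep Fermat.Agent.S43.Flat1.TorsionX1 Fermat.Agent.S19.BackEnd
open Fermat.Agent.S18.C.SmallDVR Fermat.Agent.S19.HopfOrder
open Fermat.Agent.S32.HopfClosureZl Fermat.Agent.S32.LevelActs
open Fermat.Agent.S43.Tw.Defs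

local notation "Qbar" => AlgebraicClosure ℚ
local notation "GQ" => (AlgebraicClosure ℚ ≃ₐ[ℚ] AlgebraicClosure ℚ)

variable {M : ℕ} [NeZero M] {m : ℕ} {p : ℕ} {k : ℕ}

/-- the S32 action is the action of `TorsionX1` -/
theorem torsAct_eq_galAct (σ : GQ) (t : ↥(Submodule.torsionBy ℤ (J1tw M m) ((p : ℤ) ^ k))) :
    torsAct (J := J1tw M m) ((p : ℤ) ^ k) σ t = galAct (M := M) (m := m) (k := (p : ℤ) ^ k) σ t :=
  rfl

/-- the torsion of the twisted module is finite -/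
theorem hfinJ1 (hM : 5 ≤ M) (m : ℕ) (p : ℕ) [Fact p.Prime] (k : ℕ) :
    Finite (Submodule.torsionBy ℤ (J1tw M m) ((p : ℤ) ^ k)) :=
  finite_T (M := M) (m := m) hM (Fermat.Agent.S19.Final.pow_ne_zero_int p k)

/-- **FLAT1: the `hord` input of the S32 transfer for the twisted module `J1tw M m`**, `p ∤ M` -/
theorem hord1 (hM : 5 ≤ M) (m : ℕ) (p : ℕ) [Fact p.Prime] (hpM : ¬ p ∣ M) (k : ℕ) :
    ∃ H₀ : Subalgebra (ratLocalizedAt p)
        (↥(Submodule.torsionBy ℤ (J1tw M m) ((p : ℤ) ^ k)) → Qbar),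
      IsHopfOrderZl p
        (fun (σ : GQ) (t : ↥(Submodule.torsionBy ℤ (J1tw M m) ((p : ℤ) ^ k))) =>
          torsAct (J := J1tw M m) ((p : ℤ) ^ k) σ t) H₀ := by
  obtain ⟨H, hH⟩ := Fermat.Agent.S43.Flat1.CloseX1.exists_isHopfOrderFn_of_chartAPI1
    (M := M) (m := m) (ℓ := p) (k := k) hM
    (fun A hA => Fermat.Agent.S43.Flat1.ApiX1.exists_chartAPIAt1 hM m hpM k A hA)
  exact ⟨H, Fermat.Agent.S32.BridgeFn.isHopfOrderZl_of_fn hH⟩

end Fermat.Agent.S43.Flat1.Main
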